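import Fermat.Agent.S28.Charts.Field

/-!
# S28, Part C, step E1b: the function field `F = ℚ(j(q^d) : d ∣ N)` is contained in `E`.
(statements frozen)
-/

set_option autoImplicit false
set_option linter.unusedSectionVars false

noncomputable section

namespace Fermat.Agent.S28

open ModularCurve

/-- Clearing denominators passes to polynomial rings. -/
private theorem cgen_aux_clear {A B : Type*} [CommRing A] [CommRing B] (g : A →+* B)
    (hg : ∀ x : B, ∃ m : ℕ, m ≠ 0 ∧ ∃ y : A, g y = (m : B) * x) (p : Polynomial B) :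
    ∃ m : ℕ, m ≠ 0 ∧ ∃ q : Polynomial A,
      Polynomial.mapRingHom g q = (m : Polynomial B) * p := by
  induction p using Polynomial.induction_on' with
  | add p₁ p₂ h₁ h₂ =>
    obtain ⟨m₁, hm₁, q₁, hq₁⟩ := h₁
    obtain ⟨m₂, hm₂, q₂, hq₂⟩ := h₂
    refine ⟨m₁ * m₂, Nat.mul_ne_zero hm₁ hm₂,
      (m₂ : Polynomial A) * q₁ + (m₁ : Polynomial A) * q₂, ?_⟩
    rw [map_add, map_mul, map_mul, map_natCast, map_natCast, hq₁, hq₂]
    push_cast
    ring
  | monomial k a =>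
    obtain ⟨m, hm, y, hy⟩ := hg a
    refine ⟨m, hm, Polynomial.monomial k y, ?_⟩
    rw [Polynomial.coe_mapRingHom, Polynomial.map_monomial, hy, ← Polynomial.C_eq_natCast,
      Polynomial.C_mul_monomial]

section

variable (ℓ : ℕ) [Fact ℓ.Prime]

/-- Clearing denominators for rational numbers. -/
private theorem cgen_aux_clear_rat (x : ℚ) :
    ∃ m : ℕ, m ≠ 0 ∧ ∃ y : ↥(GaloisRep.ratLocalizedAt ℓ),
      (GaloisRep.ratLocalizedAt ℓ).subtype y = (m : ℚ) * x := by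
  refine ⟨x.den, x.den_nz, ((x.num : ℤ) : ↥(GaloisRep.ratLocalizedAt ℓ)), ?_⟩
  rw [map_intCast, Rat.den_mul_eq_num]

/-- Clearing denominators for two-variable polynomials over `ℚ`. -/
private theorem cgen_aux_clear₂ (p : Polynomial (Polynomial ℚ)) :
    ∃ m : ℕ, m ≠ 0 ∧ ∃ q : Polynomial (Polynomial ↥(GaloisRep.ratLocalizedAt ℓ)),
      q.map (Polynomial.mapRingHom (GaloisRep.ratLocalizedAt ℓ).subtype) =
        (m : Polynomial (Polynomial ℚ)) * p :=
  cgen_aux_clear (Polynomial.mapRingHom (GaloisRep.ratLocalizedAt ℓ).subtype)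
    (cgen_aux_clear (GaloisRep.ratLocalizedAt ℓ).subtype (cgen_aux_clear_rat ℓ)) p

end

/-- Nonzero natural numbers are nonzero in `ℚ((q))`. -/
private theorem cgen_aux_natCast_ne_zero {m : ℕ} (hm : m ≠ 0) : (m : LaurentSeries ℚ) ≠ 0 := by
  have h1 : (m : LaurentSeries ℚ) = HahnSeries.C (m : ℚ) := (map_natCast HahnSeries.C m).symm
  rw [h1]
  exact HahnSeries.C_ne_zero (Nat.cast_ne_zero.mpr hm)

/-- `ev2` of a natural number. -/
private theorem cgen_aux_ev2_natCast {S : Type*} [CommRing S] (j u : LaurentSeries S) (m : ℕ) :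
    ev2 j u (m : Polynomial (Polynomial S)) = (m : LaurentSeries S) :=
  map_natCast (ev2Hom j u) m

section

variable {N : ℕ} [NeZero N] {ℓ : ℕ} [Fact ℓ.Prime] {n : ℕ} {u : LaurentSeries ℤ}
  {Ψ : Polynomial (Polynomial ↥(GaloisRep.ratLocalizedAt ℓ))}

theorem Pkg.inE_jqd (hP : Pkg N ℓ n u Ψ) (d : ℕ) [NeZero d] (hd : d ∣ N) :
    InE ℓ u (qExpand ℚ d jq) := by
  obtain ⟨c₀, a₀, hc₀, hca⟩ := hP.gen d hd
  obtain ⟨m₁, hm₁, c₁, hc₁⟩ := cgen_aux_clear₂ ℓ c₀
  obtain ⟨m₂, hm₂, a₁, ha₁⟩ := cgen_aux_clear₂ ℓ a₀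
  have hc : emb ℓ (lam ℓ u ((m₂ : Polynomial (Polynomial ↥(GaloisRep.ratLocalizedAt ℓ))) * c₁)) =
      (m₂ : LaurentSeries ℚ) * ((m₁ : LaurentSeries ℚ) *
        ev2 (jqModC ℚ) (coeffMap (Int.castRingHom ℚ) u) c₀) := by
    rw [emb_lam, Polynomial.map_mul, Polynomial.map_natCast, hc₁, ev2_mul, ev2_mul,
      cgen_aux_ev2_natCast, cgen_aux_ev2_natCast]
  have ha : emb ℓ (lam ℓ u ((m₁ : Polynomial (Polynomial ↥(GaloisRep.ratLocalizedAt ℓ))) * a₁)) =
      (m₁ : LaurentSeries ℚ) * ((m₂ : LaurentSeries ℚ) *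
        ev2 (jqModC ℚ) (coeffMap (Int.castRingHom ℚ) u) a₀) := by
    rw [emb_lam, Polynomial.map_mul, Polynomial.map_natCast, ha₁, ev2_mul, ev2_mul,
      cgen_aux_ev2_natCast, cgen_aux_ev2_natCast]
  refine hP.inE_of_mul_lam ((m₂ : Polynomial (Polynomial ↥(GaloisRep.ratLocalizedAt ℓ))) * c₁)
    ((m₁ : Polynomial (Polynomial ↥(GaloisRep.ratLocalizedAt ℓ))) * a₁) ?_ ?_
  · intro h0
    have h1 : emb ℓ (lam ℓ u
        ((m₂ : Polynomial (Polynomial ↥(GaloisRep.ratLocalizedAt ℓ))) * c₁)) = 0 := by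
      rw [h0, map_zero]
    rw [hc] at h1
    exact mul_ne_zero (cgen_aux_natCast_ne_zero hm₂)
      (mul_ne_zero (cgen_aux_natCast_ne_zero hm₁) hc₀) h1
  · rw [hc, ha, ← hca]
    show qExpand ℚ d (jqModC ℚ) * _ = _
    ring

theorem Pkg.inE_of_mem_full (hP : Pkg N ℓ n u Ψ) {x : LaurentSeries ℚ}
    (hx : x ∈ modularFunctionFieldFull N) : InE ℓ u x := by
  have hx' : x ∈ IntermediateField.adjoin ℚ (divisorExpansions N) := hx
  clear hx
  induction hx' using IntermediateField.adjoin_induction with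
  | mem y hy =>
    obtain ⟨d, hd0, hd, rfl⟩ := hy
    exact hP.inE_jqd d hd
  | algebraMap a =>
    have h1 : algebraMap ℚ (LaurentSeries ℚ) a = HahnSeries.C a := by
      rw [algebraMap_laurentSeries_eq_single]
      rfl
    rw [h1]
    exact inE_C ℓ u a
  | add y z _ _ hy hz => exact hy.add hz
  | inv y _ hy => exact hP.inE_inv hy
  | mul y z _ _ hy hz => exact hy.mul hz

end

end Fermat.Agent.S28
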