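import Fermat.Agent.S28.Charts.IntClosed
import Fermat.Agent.S28.Charts.Gen

/-!
# S28, Part C, step C3: the chart algebras consist of `ℓ`-integral elements.
(statements frozen)
-/

set_option autoImplicit false
set_option linter.unusedSectionVars false

noncomputable section

namespace Fermat.Agent.S28

open ModularCurve

open ModularCurve.IgusaScheme

section

variable (ℓ : ℕ) [Fact ℓ.Prime] (u : LaurentSeries ℤ)

theorem isO_jq : IsO ℓ u jq := by
  refine ⟨Polynomial.C Polynomial.X, 1, ?_, ?_⟩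
  · rw [den_one, map_one]
    exact one_ne_zero
  · rw [den_one, map_one, mul_one, lam_C, den_X, emb_jl]

theorem isO_jq_inv : IsO ℓ u jq⁻¹ := by
  refine ⟨1, Polynomial.X, ?_, ?_⟩
  · rw [den_X, red_jl]
    exact jqModC_ne_zero_of_nontrivial (ZMod ℓ)
  · rw [den_X, emb_jl, inv_mul_cancel₀ jq_ne_zero, lam_one, map_one]

theorem isO_zlC (a : ↥(GaloisRep.ratLocalizedAt ℓ)) : IsO ℓ u (HahnSeries.C (a : ℚ)) := by
  refine ⟨Polynomial.C (Polynomial.C a), 1, ?_, ?_⟩
  · rw [den_one, map_one]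
    exact one_ne_zero
  · rw [den_one, map_one, mul_one, lam_C, den_C, emb, HahnSeries.C_apply, HahnSeries.C_apply,
      coeffMap_single]
    rfl

/-- The coercion to `ℚ((q))` of a constant of the function field. -/
private theorem cchart_aux_coe_algebraMap (N : ℕ) [NeZero N]
    (r : ↥(GaloisRep.ratLocalizedAt ℓ)) :
    ((algebraMap ↥(GaloisRep.ratLocalizedAt ℓ) ↥(modularFunctionFieldFull N) r :
        ↥(modularFunctionFieldFull N)) : LaurentSeries ℚ) = HahnSeries.C (r : ℚ) := by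
  have h0 : algebraMap ↥(GaloisRep.ratLocalizedAt ℓ) ↥(modularFunctionFieldFull N) r =
      algebraMap ℚ ↥(modularFunctionFieldFull N)
        (algebraMap ↥(GaloisRep.ratLocalizedAt ℓ) ℚ r) := rfl
  have h2 : algebraMap ↥(GaloisRep.ratLocalizedAt ℓ) ℚ r = (r : ℚ) := rfl
  have h1 : ((algebraMap ℚ ↥(modularFunctionFieldFull N) (r : ℚ) :
        ↥(modularFunctionFieldFull N)) : LaurentSeries ℚ) =
      algebraMap ℚ (LaurentSeries ℚ) (r : ℚ) := by
    rw [eq_ratCast, eq_ratCast]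
    rfl
  rw [h0, h2, h1, algebraMap_laurentSeries_eq_single, HahnSeries.C_apply]

theorem isO_of_mem_adjoin (N : ℕ) [NeZero N] (S : Set ↥(modularFunctionFieldFull N))
    (hS : ∀ s ∈ S, IsO ℓ u ((s : ↥(modularFunctionFieldFull N)) : LaurentSeries ℚ))
    {x : ↥(modularFunctionFieldFull N)}
    (hx : x ∈ Algebra.adjoin ↥(GaloisRep.ratLocalizedAt ℓ) S) :
    IsO ℓ u (x : LaurentSeries ℚ) := by
  induction hx using Algebra.adjoin_induction with
  | mem s hs => exact hS s hs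
  | algebraMap r =>
    rw [cchart_aux_coe_algebraMap]
    exact isO_zlC ℓ u r
  | add a b _ _ ha hb =>
    have h : ((a + b : ↥(modularFunctionFieldFull N)) : LaurentSeries ℚ) =
        (a : LaurentSeries ℚ) + (b : LaurentSeries ℚ) := rfl
    rw [h]
    exact (mem_Osub ℓ u).mp (add_mem ((mem_Osub ℓ u).mpr ha) ((mem_Osub ℓ u).mpr hb))
  | mul a b _ _ ha hb =>
    have h : ((a * b : ↥(modularFunctionFieldFull N)) : LaurentSeries ℚ) =
        (a : LaurentSeries ℚ) * (b : LaurentSeries ℚ) := rfl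
    rw [h]
    exact (mem_Osub ℓ u).mp (mul_mem ((mem_Osub ℓ u).mpr ha) ((mem_Osub ℓ u).mpr hb))

/-- The ring hom from the adjoined algebra to `𝒪`. -/
private def cchart_aux_toO (N : ℕ) [NeZero N] (S : Set ↥(modularFunctionFieldFull N))
    (hS : ∀ s ∈ S, IsO ℓ u ((s : ↥(modularFunctionFieldFull N)) : LaurentSeries ℚ)) :
    ↥(Algebra.adjoin ↥(GaloisRep.ratLocalizedAt ℓ) S) →+* ↥(Osub ℓ u) where
  toFun a := ⟨((a : ↥(modularFunctionFieldFull N)) : LaurentSeries ℚ),
    (mem_Osub ℓ u).mpr (isO_of_mem_adjoin ℓ u N S hS a.2)⟩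
  map_one' := rfl
  map_mul' _ _ := rfl
  map_zero' := rfl
  map_add' _ _ := rfl

end

section

variable {N : ℕ} [NeZero N] {ℓ : ℕ} [Fact ℓ.Prime] {n : ℕ} {u : LaurentSeries ℤ}
  {Ψ : Polynomial (Polynomial ↥(GaloisRep.ratLocalizedAt ℓ))}

theorem Pkg.isO_of_mem_chartAlg (hP : Pkg N ℓ n u Ψ) (S : Set ↥(modularFunctionFieldFull N))
    (hS : ∀ s ∈ S, IsO ℓ u ((s : ↥(modularFunctionFieldFull N)) : LaurentSeries ℚ))
    {x : ↥(modularFunctionFieldFull N)} (hx : x ∈ chartAlg N ℓ S) :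
    IsO ℓ u (x : LaurentSeries ℚ) := by
  have hx' : IsIntegral (Algebra.adjoin ↥(GaloisRep.ratLocalizedAt ℓ) S) x :=
    (mem_chartAlg_iff N ℓ).mp hx
  have hE : InE ℓ u (x : LaurentSeries ℚ) := hP.inE_of_mem_full x.2
  have hint : IsIntegral ↥(Osub ℓ u) (x : LaurentSeries ℚ) :=
    hx'.map_of_comp_eq (cchart_aux_toO ℓ u N S hS)
      (algebraMap ↥(modularFunctionFieldFull N) (LaurentSeries ℚ)) (by ext a; rfl)
  exact hP.isO_of_isIntegral hE hint

end

end Fermat.Agent.S28
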