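import Fermat.Agent.S28.Charts.Inv

/-!
# S28, Part C, step C4: elements of `𝒪` become integral over `ℤ_(ℓ)[j]` resp. `ℤ_(ℓ)[j⁻¹]` after
multiplication by a denominator which is nonzero mod `ℓ`.  (statements frozen)
-/

set_option autoImplicit false
set_option linter.unusedSectionVars false

noncomputable section

namespace Fermat.Agent.S28

open ModularCurve

/-- Scaling a root: if `x` is a root of a monic `P` (via `φ`) and the scaled coefficients lie in
the range of `φ'`, then `s * x` is integral over `φ'`. -/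
private theorem cii_aux_scale {R A : Type*} [CommRing R] [CommRing A] [Nontrivial A]
    (φ φ' : R →+* A) (s x : A) (P : Polynomial R) (hP : P.Monic)
    (hroot : P.eval₂ φ x = 0)
    (hc : ∀ i, i < P.natDegree → φ (P.coeff i) * s ^ (P.natDegree - i) ∈ Set.range φ') :
    φ'.IsIntegralElem (s * x) := by
  have hPA : (P.map φ).Monic := hP.map φ
  have hdeg : (P.map φ).natDegree = P.natDegree := hP.natDegree_map φ
  have hS : ((P.map φ).scaleRoots s).Monic := (Polynomial.monic_scaleRoots_iff s).mpr hPA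
  have hlift : (P.map φ).scaleRoots s ∈ Polynomial.lifts φ' := by
    rw [Polynomial.lifts_iff_coeff_lifts]
    intro i
    rw [Polynomial.coeff_scaleRoots, hdeg, Polynomial.coeff_map]
    rcases lt_trichotomy i P.natDegree with hi | hi | hi
    · exact hc i hi
    · refine ⟨1, ?_⟩
      rw [hi, Nat.sub_self, pow_zero, mul_one, Polynomial.Monic.coeff_natDegree hP, map_one,
        map_one]
    · refine ⟨0, ?_⟩
      rw [Polynomial.coeff_eq_zero_of_natDegree_lt hi, map_zero φ, zero_mul, map_zero]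
  obtain ⟨Q, hQmap, -, hQ⟩ := Polynomial.lifts_and_natDegree_eq_and_monic hlift hS
  refine ⟨Q, hQ, ?_⟩
  rw [← Polynomial.eval_map, hQmap, Polynomial.scaleRoots_eval_mul, Polynomial.eval_map, hroot,
    mul_zero]

section

variable {N : ℕ} [NeZero N] {ℓ : ℕ} [Fact ℓ.Prime] {n : ℕ} {u : LaurentSeries ℤ}
  {Ψ : Polynomial (Polynomial ↥(GaloisRep.ratLocalizedAt ℓ))}

/-- STEP 0: every `λ ∈ Λ` is integral over `ℤ_(ℓ)[j]` (inside `ℚ((q))`). -/
private theorem cii_aux_step0 (hP : Pkg N ℓ n u Ψ)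
    (c : Polynomial (Polynomial ↥(GaloisRep.ratLocalizedAt ℓ))) :
    ∃ P : Polynomial (Polynomial ↥(GaloisRep.ratLocalizedAt ℓ)),
      P.Monic ∧ P.eval₂ (phiJ ℓ jq) (emb ℓ (lam ℓ u c)) = 0 := by
  obtain ⟨P, hPm, hP0⟩ := hP.lam_integral c
  refine ⟨P, hPm, ?_⟩
  have hcomp : (emb ℓ).comp (Polynomial.eval₂RingHom
      (HahnSeries.C : ↥(GaloisRep.ratLocalizedAt ℓ) →+*
        LaurentSeries ↥(GaloisRep.ratLocalizedAt ℓ)) (jl ℓ)) = phiJ ℓ jq :=
    RingHom.ext fun b => emb_den ℓ b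
  rw [ev2_def] at hP0
  have h := congrArg (emb ℓ) hP0
  rw [Polynomial.hom_eval₂, hcomp, map_zero] at h
  exact h

/-- KEY FACT (reflect). -/
private theorem cii_aux_reflect (ℓ : ℕ) [Fact ℓ.Prime]
    (p : Polynomial ↥(GaloisRep.ratLocalizedAt ℓ)) (E : ℕ) (hE : p.natDegree ≤ E) :
    phiJ ℓ jq⁻¹ (p.reflect E) = phiJ ℓ jq p * jq⁻¹ ^ E := by
  let _ : Invertible jq := invertibleOfNonzero jq_ne_zero
  have h := Polynomial.eval₂_reflect_mul_pow (HahnSeries.C : ℚ →+* LaurentSeries ℚ) jq E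
    (p.map (GaloisRep.ratLocalizedAt ℓ).subtype) (Polynomial.natDegree_map_le.trans hE)
  rw [invOf_eq_inv, Polynomial.reflect_map] at h
  rw [phiJ_apply, phiJ_apply, ← h, mul_assoc, ← mul_pow, mul_inv_cancel₀ jq_ne_zero, one_pow,
    mul_one]

theorem Pkg.isO_integral_fin (hP : Pkg N ℓ n u Ψ) {y : LaurentSeries ℚ} (hy : IsO ℓ u y) :
    ∃ β : Polynomial ↥(GaloisRep.ratLocalizedAt ℓ), β.map (zlRes ℓ) ≠ 0 ∧
      (phiJ ℓ jq).IsIntegralElem (phiJ ℓ jq β * y) := by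
  obtain ⟨c, b, hb, hyb⟩ := hy
  refine ⟨b, (red_den_ne_zero_iff ℓ b).mp hb, ?_⟩
  have h : phiJ ℓ jq b * y = emb ℓ (lam ℓ u c) := by
    rw [← emb_den, mul_comm, hyb]
  rw [h]
  exact cii_aux_step0 hP c

theorem Pkg.isO_integral_inf (hP : Pkg N ℓ n u Ψ) {y : LaurentSeries ℚ} (hy : IsO ℓ u y) :
    ∃ β : Polynomial ↥(GaloisRep.ratLocalizedAt ℓ), β.map (zlRes ℓ) ≠ 0 ∧
      (phiJ ℓ jq⁻¹).IsIntegralElem (phiJ ℓ jq⁻¹ β * y) := by
  obtain ⟨c, b, hb, hyb⟩ := hy
  obtain ⟨P, hPm, hP0⟩ := cii_aux_step0 hP c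
  -- a common bound for the degrees
  set D : ℕ := b.natDegree + ∑ i ∈ Finset.range P.natDegree, (P.coeff i).natDegree with hD
  have hDb : b.natDegree ≤ D := Nat.le_add_right _ _
  have hDc : ∀ i, i < P.natDegree → (P.coeff i).natDegree ≤ D := by
    intro i hi
    have h1 : (P.coeff i).natDegree ≤ ∑ i ∈ Finset.range P.natDegree, (P.coeff i).natDegree :=
      Finset.single_le_sum (f := fun i => (P.coeff i).natDegree) (fun _ _ => Nat.zero_le _)
        (Finset.mem_range.mpr hi)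
    exact h1.trans (Nat.le_add_left _ _)
  refine ⟨b.reflect D, ?_, ?_⟩
  · rw [← Polynomial.reflect_map, Ne, Polynomial.reflect_eq_zero_iff]
    exact (red_den_ne_zero_iff ℓ b).mp hb
  · have h : phiJ ℓ jq⁻¹ (b.reflect D) * y = jq⁻¹ ^ D * emb ℓ (lam ℓ u c) := by
      rw [cii_aux_reflect ℓ b D hDb, ← hyb, emb_den]
      ring
    rw [h]
    refine cii_aux_scale (phiJ ℓ jq) (phiJ ℓ jq⁻¹) (jq⁻¹ ^ D) _ P hPm hP0 ?_
    intro i hi
    refine ⟨(P.coeff i).reflect (D * (P.natDegree - i)), ?_⟩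
    rw [cii_aux_reflect ℓ (P.coeff i) (D * (P.natDegree - i)) ?_, pow_mul]
    calc (P.coeff i).natDegree ≤ D := hDc i hi
      _ = D * 1 := (mul_one D).symm
      _ ≤ D * (P.natDegree - i) := Nat.mul_le_mul_left D (by omega)

end

end Fermat.Agent.S28
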