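import Fermat.Agent.S28.Charts.Defs

/-!
# S28, Part C, step C4: membership in the chart algebras `{j}`, `{j⁻¹}` as integrality over
`ℤ_(ℓ)[Y]` along `Y ↦ jq` resp. `Y ↦ jq⁻¹`.  (statements frozen)

`RingHom.IsIntegralElem f x` means `∃ p, p.Monic ∧ p.eval₂ f x = 0`.
-/

set_option autoImplicit false
set_option linter.unusedSectionVars false

noncomputable section

namespace Fermat.Agent.S28

open ModularCurve

open ModularCurve.IgusaScheme

section

variable (N : ℕ) [NeZero N] (ℓ : ℕ) [Fact ℓ.Prime]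

/-- The inclusion `F → ℚ((q))` as a ring homomorphism. -/
private def cmem_aux_incl : ↥(modularFunctionFieldFull N) →+* LaurentSeries ℚ where
  toFun x := (x : LaurentSeries ℚ)
  map_one' := rfl
  map_mul' _ _ := rfl
  map_zero' := rfl
  map_add' _ _ := rfl

private theorem cmem_aux_incl_apply (x : ↥(modularFunctionFieldFull N)) :
    cmem_aux_incl N x = (x : LaurentSeries ℚ) := rfl

private theorem cmem_aux_incl_injective : Function.Injective (cmem_aux_incl N) :=
  fun _ _ h => Subtype.ext h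

/-- `b ↦ b(s)`, `ℤ_(ℓ)[Y] → ℤ_(ℓ)[s]`. -/
private def cmem_aux_g (s : ↥(modularFunctionFieldFull N)) :
    Polynomial ↥(GaloisRep.ratLocalizedAt ℓ) →+*
      ↥(Algebra.adjoin ↥(GaloisRep.ratLocalizedAt ℓ) ({s} : Set ↥(modularFunctionFieldFull N))) :=
  ((Polynomial.aeval s : Polynomial ↥(GaloisRep.ratLocalizedAt ℓ) →ₐ[↥(GaloisRep.ratLocalizedAt ℓ)]
      ↥(modularFunctionFieldFull N)).codRestrict
    (Algebra.adjoin ↥(GaloisRep.ratLocalizedAt ℓ) ({s} : Set ↥(modularFunctionFieldFull N)))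
    (fun _ => Polynomial.aeval_mem_adjoin_singleton _ _)).toRingHom

private theorem cmem_aux_g_coe (s : ↥(modularFunctionFieldFull N))
    (b : Polynomial ↥(GaloisRep.ratLocalizedAt ℓ)) :
    ((cmem_aux_g N ℓ s b : ↥(modularFunctionFieldFull N))) = Polynomial.aeval s b := rfl

private theorem cmem_aux_g_surjective (s : ↥(modularFunctionFieldFull N)) :
    Function.Surjective (cmem_aux_g N ℓ s) := by
  rintro ⟨y, hy⟩
  rw [Algebra.adjoin_singleton_eq_range_aeval] at hy
  obtain ⟨b, hb⟩ := hy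
  exact ⟨b, Subtype.ext hb⟩

/-- `phiJ` factors through the adjoin algebra. -/
private theorem cmem_aux_phiJ_eq (s : ↥(modularFunctionFieldFull N)) :
    phiJ ℓ (s : LaurentSeries ℚ) =
      (cmem_aux_incl N).comp
        ((algebraMap
          ↥(Algebra.adjoin ↥(GaloisRep.ratLocalizedAt ℓ) ({s} : Set ↥(modularFunctionFieldFull N)))
          ↥(modularFunctionFieldFull N)).comp (cmem_aux_g N ℓ s)) := by
  refine Polynomial.ringHom_ext' (zl_ringHom_ext ℓ _ _) ?_
  rw [phiJ_X]
  simp only [RingHom.comp_apply]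
  have h1 : (algebraMap
        ↥(Algebra.adjoin ↥(GaloisRep.ratLocalizedAt ℓ) ({s} : Set ↥(modularFunctionFieldFull N)))
        ↥(modularFunctionFieldFull N)) (cmem_aux_g N ℓ s Polynomial.X) = s := by
    change Polynomial.aeval s Polynomial.X = _
    rw [Polynomial.aeval_X]
  rw [h1, cmem_aux_incl_apply]

private theorem cmem_aux_generic (s x : ↥(modularFunctionFieldFull N)) :
    x ∈ chartAlg N ℓ {s} ↔
      (phiJ ℓ (s : LaurentSeries ℚ)).IsIntegralElem (x : LaurentSeries ℚ) := by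
  rw [mem_chartAlg_iff]
  constructor
  · rintro ⟨p, hp, hpx⟩
    have hl : p ∈ Polynomial.lifts (cmem_aux_g N ℓ s) :=
      (Polynomial.lifts_iff_coeff_lifts p).mpr fun n => cmem_aux_g_surjective N ℓ s _
    obtain ⟨P, hPp, -, hP⟩ := Polynomial.lifts_and_natDegree_eq_and_monic hl hp
    refine ⟨P, hP, ?_⟩
    rw [cmem_aux_phiJ_eq, ← cmem_aux_incl_apply, ← Polynomial.hom_eval₂, ← Polynomial.eval₂_map,
      hPp, hpx, map_zero]
  · rintro ⟨P, hP, hPx⟩
    refine ⟨P.map (cmem_aux_g N ℓ s), hP.map _, ?_⟩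
    apply cmem_aux_incl_injective N
    rw [map_zero, Polynomial.eval₂_map, Polynomial.hom_eval₂, ← cmem_aux_phiJ_eq,
      cmem_aux_incl_apply]
    exact hPx

theorem mem_chartAlgFin_iff (x : ↥(modularFunctionFieldFull N)) :
    x ∈ chartAlgFin N ℓ ↔ (phiJ ℓ jq).IsIntegralElem (x : LaurentSeries ℚ) :=
  cmem_aux_generic N ℓ (jFull N) x

theorem mem_chartAlgInf_iff (x : ↥(modularFunctionFieldFull N)) :
    x ∈ chartAlgInf N ℓ ↔ (phiJ ℓ jq⁻¹).IsIntegralElem (x : LaurentSeries ℚ) := by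
  have h := cmem_aux_generic N ℓ (jFull N)⁻¹ x
  rwa [IntermediateField.coe_inv, coe_jFull] at h

end

end Fermat.Agent.S28
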