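import Fermat.Agent.S28.Charts.K8abs
import Fermat.Agent.S28.Charts.Mem
import Fermat.Agent.S28.Charts.IntInf

/-!
# S28, Part C, step C4 (K8): `y ∈ F` `ℓ`-integral with `ℓ y` in the chart algebra implies `y` in
the chart algebra.  (statements frozen)
-/

set_option autoImplicit false
set_option linter.unusedSectionVars false

noncomputable section

namespace Fermat.Agent.S28

open ModularCurve

open ModularCurve.IgusaScheme

section

variable {N : ℕ} [NeZero N] {ℓ : ℕ} [Fact ℓ.Prime] {n : ℕ} {u : LaurentSeries ℤ}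
  {Ψ : Polynomial (Polynomial ↥(GaloisRep.ratLocalizedAt ℓ))}

/-- `phiJ ℓ jj (C ℓ) * y = ((ℓ * y : F) : L)`. -/
private theorem cker_aux_phiJ_mul (N : ℕ) [NeZero N] (ℓ : ℕ) [Fact ℓ.Prime]
    (jj : LaurentSeries ℚ) (y : ↥(modularFunctionFieldFull N)) :
    phiJ ℓ jj (Polynomial.C (ℓ : ↥(GaloisRep.ratLocalizedAt ℓ))) * (y : LaurentSeries ℚ)
      = (((ℓ : ↥(modularFunctionFieldFull N)) * y : ↥(modularFunctionFieldFull N)) :
          LaurentSeries ℚ) := by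
  rw [phiJ_C]
  have h1 : (((ℓ : ↥(GaloisRep.ratLocalizedAt ℓ)) : ℚ)) = (ℓ : ℚ) := by
    push_cast; rfl
  rw [h1, map_natCast]
  push_cast
  rfl

theorem Pkg.mem_chartAlgFin_of_mul (hP : Pkg N ℓ n u Ψ) (y : ↥(modularFunctionFieldFull N))
    (hy : IsO ℓ u (y : LaurentSeries ℚ))
    (h : (ℓ : ↥(modularFunctionFieldFull N)) * y ∈ chartAlgFin N ℓ) : y ∈ chartAlgFin N ℓ := by
  rw [mem_chartAlgFin_iff] at h ⊢
  have := zlPoly_isIntegrallyClosed ℓ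
  obtain ⟨β, hβ, hβint⟩ := hP.isO_integral_fin hy
  refine isIntegralElem_of_mul (phiJ ℓ jq) (phiJ_jq_injective ℓ)
    (Polynomial.C (ℓ : ↥(GaloisRep.ratLocalizedAt ℓ))) β (prime_C_l ℓ)
    (not_C_dvd_of_map_ne_zero ℓ hβ) (y : LaurentSeries ℚ) ?_ hβint
  rw [cker_aux_phiJ_mul]
  exact h

theorem Pkg.mem_chartAlgInf_of_mul (hP : Pkg N ℓ n u Ψ) (y : ↥(modularFunctionFieldFull N))
    (hy : IsO ℓ u (y : LaurentSeries ℚ))
    (h : (ℓ : ↥(modularFunctionFieldFull N)) * y ∈ chartAlgInf N ℓ) : y ∈ chartAlgInf N ℓ := by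
  rw [mem_chartAlgInf_iff] at h ⊢
  have := zlPoly_isIntegrallyClosed ℓ
  obtain ⟨β, hβ, hβint⟩ := hP.isO_integral_inf hy
  refine isIntegralElem_of_mul (phiJ ℓ jq⁻¹) (phiJ_jq_inv_injective ℓ)
    (Polynomial.C (ℓ : ↥(GaloisRep.ratLocalizedAt ℓ))) β (prime_C_l ℓ)
    (not_C_dvd_of_map_ne_zero ℓ hβ) (y : LaurentSeries ℚ) ?_ hβint
  rw [cker_aux_phiJ_mul]
  exact h

end

end Fermat.Agent.S28
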