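import Fermat.Agent.S28.Charts.Defs

/-!
# S28, Part C: the polynomial rings `ℤ_(ℓ)[Y]`, `ℤ_(ℓ)[Y][X]` and the prime `ℓ`.
(statements frozen)
-/

set_option autoImplicit false
set_option linter.unusedSectionVars false

noncomputable section

namespace Fermat.Agent.S28

open ModularCurve

section

variable (ℓ : ℕ) [Fact ℓ.Prime]

/-- The kernel of `ℤ_(ℓ)[Y] → 𝔽_ℓ[Y]` is generated by `ℓ`. -/
theorem map_zlRes_eq_zero_iff (b : Polynomial ↥(GaloisRep.ratLocalizedAt ℓ)) :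
    b.map (zlRes ℓ) = 0 ↔ ∃ b' : Polynomial ↥(GaloisRep.ratLocalizedAt ℓ),
      b = Polynomial.C (ℓ : ↥(GaloisRep.ratLocalizedAt ℓ)) * b' := by
  have h1 : b.map (zlRes ℓ) = 0 ↔ ∀ i, (ℓ : ↥(GaloisRep.ratLocalizedAt ℓ)) ∣ b.coeff i := by
    rw [Polynomial.ext_iff]
    refine forall_congr' fun i => ?_
    rw [Polynomial.coeff_map, Polynomial.coeff_zero, zlRes_eq_zero_iff]
    rfl
  rw [h1, ← Polynomial.C_dvd_iff_dvd_coeff]
  rfl

/-- The kernel of `ℤ_(ℓ)[Y][X] → 𝔽_ℓ[Y][X]` is generated by `ℓ`. -/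
theorem map_map_zlRes_eq_zero_iff (c : Polynomial (Polynomial ↥(GaloisRep.ratLocalizedAt ℓ))) :
    c.map (Polynomial.mapRingHom (zlRes ℓ)) = 0 ↔
      ∃ c' : Polynomial (Polynomial ↥(GaloisRep.ratLocalizedAt ℓ)),
        c = Polynomial.C (Polynomial.C (ℓ : ↥(GaloisRep.ratLocalizedAt ℓ))) * c' := by
  have h1 : c.map (Polynomial.mapRingHom (zlRes ℓ)) = 0 ↔
      ∀ i, Polynomial.C (ℓ : ↥(GaloisRep.ratLocalizedAt ℓ)) ∣ c.coeff i := by
    rw [Polynomial.ext_iff]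
    refine forall_congr' fun i => ?_
    rw [Polynomial.coeff_map, Polynomial.coeff_zero, Polynomial.coe_mapRingHom,
      map_zlRes_eq_zero_iff]
    rfl
  rw [h1, ← Polynomial.C_dvd_iff_dvd_coeff]
  rfl

/-- Every nonzero `b ∈ ℤ_(ℓ)[Y]` is `ℓ^k · b'` with `b' ≢ 0 mod ℓ`. -/
theorem poly_saturate {b : Polynomial ↥(GaloisRep.ratLocalizedAt ℓ)} (hb : b ≠ 0) :
    ∃ (k : ℕ) (b' : Polynomial ↥(GaloisRep.ratLocalizedAt ℓ)),
      b = Polynomial.C ((ℓ : ↥(GaloisRep.ratLocalizedAt ℓ)) ^ k) * b' ∧ b'.map (zlRes ℓ) ≠ 0 := by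
  have hPID := zl_isPrincipalIdealRing ℓ
  have hirr : Irreducible (Polynomial.C (ℓ : ↥(GaloisRep.ratLocalizedAt ℓ))) :=
    (Polynomial.prime_C_iff.mpr (zl_prime ℓ)).irreducible
  obtain ⟨n, a, hna, hba⟩ := WfDvdMonoid.max_power_factor hb hirr
  refine ⟨n, a, ?_, fun h => hna ((map_zlRes_eq_zero_iff ℓ a).1 h)⟩
  rw [hba, map_pow]

/-- `ℓ` is a prime element of `ℤ_(ℓ)[Y]`. -/
theorem prime_C_l : Prime (Polynomial.C (ℓ : ↥(GaloisRep.ratLocalizedAt ℓ))) := by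
  exact Polynomial.prime_C_iff.mpr (zl_prime ℓ)

theorem not_C_dvd_of_map_ne_zero {β : Polynomial ↥(GaloisRep.ratLocalizedAt ℓ)}
    (h : β.map (zlRes ℓ) ≠ 0) : ¬ Polynomial.C (ℓ : ↥(GaloisRep.ratLocalizedAt ℓ)) ∣ β := by
  intro hd
  exact h ((map_zlRes_eq_zero_iff ℓ β).2 hd)

/-- `ℤ_(ℓ)[Y]` is integrally closed (it is a UFD). -/
theorem zlPoly_isIntegrallyClosed : IsIntegrallyClosed (Polynomial ↥(GaloisRep.ratLocalizedAt ℓ)) := by
  have hPID := zl_isPrincipalIdealRing ℓ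
  infer_instance

end

end Fermat.Agent.S28
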