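import Fermat.Agent.S28.Charts.Basic
import Fermat.Agent.S28.Charts.Sat

/-!
# S28, Part C, step C1: the ring `Λ = {c(j, u)} ⊆ ℤ_(ℓ)((q))` and its reduction mod `ℓ`.
(statements frozen)
-/

set_option autoImplicit false
set_option linter.unusedSectionVars false

noncomputable section

namespace Fermat.Agent.S28

open ModularCurve

section

variable {N : ℕ} [NeZero N] {ℓ : ℕ} [Fact ℓ.Prime] {n : ℕ} {u : LaurentSeries ℤ}
  {Ψ : Polynomial (Polynomial ↥(GaloisRep.ratLocalizedAt ℓ))}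

/-- `Ψ(j, u) = 0` over `ℤ_(ℓ)`. -/
theorem Pkg.lam_psi (hP : Pkg N ℓ n u Ψ) : lam ℓ u Ψ = 0 := by
  apply emb_injective ℓ
  rw [emb_lam, hP.root, map_zero]

/-- Every element of `Λ` is `c(j, u)` with `deg_X c < n`. -/
theorem Pkg.exists_lam_lt (hP : Pkg N ℓ n u Ψ) (c : Polynomial (Polynomial ↥(GaloisRep.ratLocalizedAt ℓ))) :
    ∃ c' : Polynomial (Polynomial ↥(GaloisRep.ratLocalizedAt ℓ)),
      c'.natDegree < n ∧ lam ℓ u c' = lam ℓ u c := by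
  have hΨ1 : Ψ ≠ 1 := by
    intro h1
    have h2 := hP.lam_psi
    rw [h1, lam_one] at h2
    exact one_ne_zero h2
  refine ⟨c %ₘ Ψ, ?_, ?_⟩
  · have h := Polynomial.natDegree_modByMonic_lt c hP.monic hΨ1
    rwa [hP.natDegree] at h
  · have h := congrArg (lam ℓ u) (Polynomial.modByMonic_add_div c Ψ)
    rw [lam_add, lam_mul, hP.lam_psi, zero_mul, add_zero] at h
    exact h

/-- (K2) `λ ∈ Λ`, `λ ≡ 0 mod ℓ` implies `λ ∈ ℓ Λ`. -/
theorem Pkg.lam_red_zero (hP : Pkg N ℓ n u Ψ) (c : Polynomial (Polynomial ↥(GaloisRep.ratLocalizedAt ℓ)))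
    (h : red ℓ (lam ℓ u c) = 0) :
    ∃ c' : Polynomial (Polynomial ↥(GaloisRep.ratLocalizedAt ℓ)),
      lam ℓ u c = (ℓ : LaurentSeries ↥(GaloisRep.ratLocalizedAt ℓ)) * lam ℓ u c' := by
  obtain ⟨c₁, hc₁, hlam⟩ := hP.exists_lam_lt c
  rw [← hlam, red_lam] at h
  have hdeg : (c₁.map (Polynomial.mapRingHom (zlRes ℓ))).natDegree < n :=
    lt_of_le_of_lt Polynomial.natDegree_map_le hc₁
  have hzero := hP.indep _ hdeg h
  obtain ⟨c₂, hc₂⟩ := (map_map_zlRes_eq_zero_iff ℓ c₁).1 hzero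
  refine ⟨c₂, ?_⟩
  rw [← hlam, hc₂, lam_mul, lam_C, den_C_natCast]

/-- Auxiliary induction for `Pkg.lam_saturate`. -/
private theorem clam_aux_saturate (hP : Pkg N ℓ n u Ψ) (m : ℤ) :
    ∀ (k₀ : ℕ) (c : Polynomial (Polynomial ↥(GaloisRep.ratLocalizedAt ℓ)))
      (v : (↥(GaloisRep.ratLocalizedAt ℓ))ˣ),
      (lam ℓ u c).coeff m = (ℓ : ↥(GaloisRep.ratLocalizedAt ℓ)) ^ k₀ * v →
      ∃ (k : ℕ) (c' : Polynomial (Polynomial ↥(GaloisRep.ratLocalizedAt ℓ))),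
        lam ℓ u c = (ℓ : LaurentSeries ↥(GaloisRep.ratLocalizedAt ℓ)) ^ k * lam ℓ u c' ∧
          red ℓ (lam ℓ u c') ≠ 0 := by
  intro k₀
  induction k₀ with
  | zero =>
    intro c v hv
    refine ⟨0, c, by rw [pow_zero, one_mul], ?_⟩
    intro hred
    have h1 : zlRes ℓ ((lam ℓ u c).coeff m) = 0 := by
      have h2 := congrArg (fun x : LaurentSeries (ZMod ℓ) => x.coeff m) hred
      simpa [red] using h2
    rw [hv, pow_zero, one_mul] at h1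
    have h3 : IsUnit (zlRes ℓ (v : ↥(GaloisRep.ratLocalizedAt ℓ))) := v.isUnit.map (zlRes ℓ)
    rw [h1] at h3
    exact not_isUnit_zero h3
  | succ k₀ ih =>
    intro c v hv
    by_cases hred : red ℓ (lam ℓ u c) = 0
    · obtain ⟨c₁, hc₁⟩ := hP.lam_red_zero c hred
      have hcoeff : (lam ℓ u c).coeff m =
          (ℓ : ↥(GaloisRep.ratLocalizedAt ℓ)) * (lam ℓ u c₁).coeff m := by
        rw [hc₁, ← map_natCast (HahnSeries.C :
          ↥(GaloisRep.ratLocalizedAt ℓ) →+* LaurentSeries ↥(GaloisRep.ratLocalizedAt ℓ)) ℓ,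
          HahnSeries.C_mul_eq_smul, HahnSeries.coeff_smul, smul_eq_mul]
      have hl : (ℓ : ↥(GaloisRep.ratLocalizedAt ℓ)) ≠ 0 := (zl_prime ℓ).ne_zero
      have h1 : (lam ℓ u c₁).coeff m = (ℓ : ↥(GaloisRep.ratLocalizedAt ℓ)) ^ k₀ * v := by
        apply mul_left_cancel₀ hl
        rw [← hcoeff, hv, pow_succ]
        ring
      obtain ⟨k, c', hk, hne⟩ := ih c₁ v h1
      refine ⟨k + 1, c', ?_, hne⟩
      rw [hc₁, hk, pow_succ]
      ring
    · exact ⟨0, c, by rw [pow_zero, one_mul], hred⟩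

/-- Saturation: every nonzero `λ ∈ Λ` is `ℓ^k λ'` with `λ' ∈ Λ`, `λ' ≢ 0 mod ℓ`. -/
theorem Pkg.lam_saturate (hP : Pkg N ℓ n u Ψ) (c : Polynomial (Polynomial ↥(GaloisRep.ratLocalizedAt ℓ)))
    (h : lam ℓ u c ≠ 0) :
    ∃ (k : ℕ) (c' : Polynomial (Polynomial ↥(GaloisRep.ratLocalizedAt ℓ))),
      lam ℓ u c = (ℓ : LaurentSeries ↥(GaloisRep.ratLocalizedAt ℓ)) ^ k * lam ℓ u c' ∧
        red ℓ (lam ℓ u c') ≠ 0 := by
  obtain ⟨m, hm⟩ : ∃ m : ℤ, (lam ℓ u c).coeff m ≠ 0 := by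
    by_contra hcon
    have hall : ∀ m : ℤ, (lam ℓ u c).coeff m = 0 := fun m =>
      by_contra fun hm => hcon ⟨m, hm⟩
    apply h
    apply HahnSeries.ext
    funext m
    rw [hall m]
    rfl
  obtain ⟨k₀, v, hv⟩ := zl_eq_pow_mul_unit ℓ _ hm
  exact clam_aux_saturate hP m k₀ c v hv

end

end Fermat.Agent.S28
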