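import Fermat.Agent.S28.Charts.O
import Fermat.Agent.S28.Charts.Lam

/-!
# S28, Part C, step O2: the kernel of the reduction map on `𝒪` is `ℓ 𝒪`.  (statement frozen)
-/

set_option autoImplicit false
set_option linter.unusedSectionVars false

noncomputable section

namespace Fermat.Agent.S28

open ModularCurve

section

variable {N : ℕ} [NeZero N] {ℓ : ℕ} [Fact ℓ.Prime] {n : ℕ} {u : LaurentSeries ℤ}
  {Ψ : Polynomial (Polynomial ↥(GaloisRep.ratLocalizedAt ℓ))}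

theorem Pkg.red_zero_imp (hP : Pkg N ℓ n u Ψ) {x : LaurentSeries ℚ} (h : Red ℓ u x 0) :
    ∃ x' : LaurentSeries ℚ, IsO ℓ u x' ∧ x = (ℓ : LaurentSeries ℚ) * x' := by
  obtain ⟨c, b, hb, hx, hy⟩ := h
  rw [zero_mul] at hy
  obtain ⟨c', hc'⟩ := hP.lam_red_zero c hy.symm
  have hℓ : (ℓ : LaurentSeries ℚ) ≠ 0 := by
    rw [← map_natCast (HahnSeries.C : ℚ →+* LaurentSeries ℚ) ℓ]
    exact HahnSeries.C_ne_zero (Nat.cast_ne_zero.mpr (Fact.out : ℓ.Prime).ne_zero)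
  refine ⟨(ℓ : LaurentSeries ℚ)⁻¹ * x, ⟨c', b, hb, ?_⟩, (mul_inv_cancel_left₀ hℓ x).symm⟩
  rw [mul_assoc, hx, hc', map_mul, map_natCast, inv_mul_cancel_left₀ hℓ]

end

end Fermat.Agent.S28
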