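import Fermat.Agent.S28.Charts.Defs

/-!
# S28, Part C: basic compatibilities of `emb`, `red`, `lam`, `den`, `phiJ`.  (statements frozen)
-/

set_option autoImplicit false
set_option linter.unusedSectionVars false

noncomputable section

namespace Fermat.Agent.S28

open ModularCurve

section

variable (ℓ : ℕ) [Fact ℓ.Prime] (u : LaurentSeries ℤ)

theorem emb_injective : Function.Injective (emb ℓ) := by
  intro x y h
  refine HahnSeries.ext (funext fun k => ?_)
  have h1 := congrArg (fun z : LaurentSeries ℚ => z.coeff k) h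
  simp only [emb, coeffMap_coeff] at h1
  exact Subtype.val_injective h1

/-- The kernel of the reduction of coefficients is `ℓ · ℤ_(ℓ)((q))`. -/
theorem red_eq_zero_iff (x : LaurentSeries ↥(GaloisRep.ratLocalizedAt ℓ)) :
    red ℓ x = 0 ↔ ∃ y : LaurentSeries ↥(GaloisRep.ratLocalizedAt ℓ),
      x = (ℓ : LaurentSeries ↥(GaloisRep.ratLocalizedAt ℓ)) * y := by
  constructor
  · intro h
    have hℓ : (ℓ : ↥(GaloisRep.ratLocalizedAt ℓ)) ≠ 0 := (zl_prime ℓ).ne_zero
    have hk : ∀ k : ℤ, ∃ y : ↥(GaloisRep.ratLocalizedAt ℓ),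
        x.coeff k = (ℓ : ↥(GaloisRep.ratLocalizedAt ℓ)) * y := by
      intro k
      rw [← zlRes_eq_zero_iff]
      have h1 := congrArg (fun z : LaurentSeries (ZMod ℓ) => z.coeff k) h
      simpa only [red, coeffMap_coeff, HahnSeries.coeff_zero] using h1
    choose f hf using hk
    have hsupp : Function.support f ⊆ x.support := by
      intro k hk
      rw [Function.mem_support] at hk
      rw [HahnSeries.mem_support, hf k]
      exact mul_ne_zero hℓ hk
    refine ⟨⟨f, x.isPWO_support.mono hsupp⟩, ?_⟩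
    refine HahnSeries.ext (funext fun k => ?_)
    rw [← map_natCast (HahnSeries.C : ↥(GaloisRep.ratLocalizedAt ℓ) →+*
      LaurentSeries ↥(GaloisRep.ratLocalizedAt ℓ)) ℓ, HahnSeries.C_mul_eq_smul,
      HahnSeries.coeff_smul, smul_eq_mul]
    exact hf k
  · rintro ⟨y, rfl⟩
    have h0 : (ℓ : LaurentSeries (ZMod ℓ)) = 0 := by
      rw [← map_natCast (HahnSeries.C : ZMod ℓ →+* LaurentSeries (ZMod ℓ)) ℓ, ZMod.natCast_self,
        map_zero]
    rw [map_mul, map_natCast, h0, zero_mul]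

theorem emb_jl : emb ℓ (jl ℓ) = jq := by
  exact coeffMap_jqModC _

theorem red_jl : red ℓ (jl ℓ) = jqModC (ZMod ℓ) := by
  exact coeffMap_jqModC _

theorem emb_ul : emb ℓ (ul ℓ u) = coeffMap (Int.castRingHom ℚ) u := by
  unfold emb ul
  rw [coeffMap_coeffMap]
  exact coeffMap_congr (RingHom.ext_int _ _) u

theorem red_ul : red ℓ (ul ℓ u) = coeffMap (Int.castRingHom (ZMod ℓ)) u := by
  unfold red ul
  rw [coeffMap_coeffMap]
  exact coeffMap_congr (RingHom.ext_int _ _) u

/-- Change of coefficients commutes with the constant embedding. -/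
private theorem cbasic_aux_coeffMap_comp_C {R T : Type*} [CommRing R] [CommRing T] (g : R →+* T) :
    (coeffMap g).comp (HahnSeries.C : R →+* LaurentSeries R) =
      (HahnSeries.C : T →+* LaurentSeries T).comp g := by
  refine RingHom.ext fun a => ?_
  rw [RingHom.comp_apply, RingHom.comp_apply, HahnSeries.C_apply, coeffMap_single,
    HahnSeries.C_apply]

/-- Change of coefficients commutes with evaluation of a one-variable polynomial. -/
private theorem cbasic_aux_coeffMap_eval₂ {R T : Type*} [CommRing R] [CommRing T] (g : R →+* T)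
    (j : LaurentSeries R) (b : Polynomial R) :
    coeffMap g (b.eval₂ (HahnSeries.C : R →+* LaurentSeries R) j) =
      (b.map g).eval₂ (HahnSeries.C : T →+* LaurentSeries T) (coeffMap g j) := by
  rw [Polynomial.hom_eval₂, Polynomial.eval₂_map, cbasic_aux_coeffMap_comp_C]

theorem emb_den (b : Polynomial ↥(GaloisRep.ratLocalizedAt ℓ)) : emb ℓ (den ℓ b) = phiJ ℓ jq b := by
  rw [phiJ_apply, den_def]
  unfold emb
  rw [cbasic_aux_coeffMap_eval₂]
  exact congrArg (fun z => Polynomial.eval₂ HahnSeries.C z _) (emb_jl ℓ)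

theorem emb_lam (c : Polynomial (Polynomial ↥(GaloisRep.ratLocalizedAt ℓ))) :
    emb ℓ (lam ℓ u c) = ev2 (jqModC ℚ) (coeffMap (Int.castRingHom ℚ) u)
      (c.map (Polynomial.mapRingHom (GaloisRep.ratLocalizedAt ℓ).subtype)) := by
  have h := coeffMap_ev2 (GaloisRep.ratLocalizedAt ℓ).subtype (jl ℓ) (ul ℓ u) c
  rw [show coeffMap (GaloisRep.ratLocalizedAt ℓ).subtype (jl ℓ) = jqModC ℚ from emb_jl ℓ,
    show coeffMap (GaloisRep.ratLocalizedAt ℓ).subtype (ul ℓ u) =
      coeffMap (Int.castRingHom ℚ) u from emb_ul ℓ u] at h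
  exact h

theorem red_den (b : Polynomial ↥(GaloisRep.ratLocalizedAt ℓ)) :
    red ℓ (den ℓ b) = (b.map (zlRes ℓ)).eval₂ HahnSeries.C (jqModC (ZMod ℓ)) := by
  rw [den_def]
  unfold red
  rw [cbasic_aux_coeffMap_eval₂]
  exact congrArg (fun z => Polynomial.eval₂ HahnSeries.C z _) (red_jl ℓ)

theorem red_lam (c : Polynomial (Polynomial ↥(GaloisRep.ratLocalizedAt ℓ))) :
    red ℓ (lam ℓ u c) = ev2 (jqModC (ZMod ℓ)) (coeffMap (Int.castRingHom (ZMod ℓ)) u)
      (c.map (Polynomial.mapRingHom (zlRes ℓ))) := by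
  have h := coeffMap_ev2 (zlRes ℓ) (jl ℓ) (ul ℓ u) c
  rw [show coeffMap (zlRes ℓ) (jl ℓ) = jqModC (ZMod ℓ) from red_jl ℓ,
    show coeffMap (zlRes ℓ) (ul ℓ u) =
      coeffMap (Int.castRingHom (ZMod ℓ)) u from red_ul ℓ u] at h
  exact h

/-- `j` is transcendental over `ℤ_(ℓ)`. -/
theorem den_ne_zero {b : Polynomial ↥(GaloisRep.ratLocalizedAt ℓ)} (hb : b ≠ 0) : den ℓ b ≠ 0 := by
  exact (leadingAt_jqModC ↥(GaloisRep.ratLocalizedAt ℓ)).eval₂_ne_zero one_pos hb

/-- `j̄` is transcendental over `𝔽_ℓ`. -/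
theorem red_den_ne_zero_iff (b : Polynomial ↥(GaloisRep.ratLocalizedAt ℓ)) :
    red ℓ (den ℓ b) ≠ 0 ↔ b.map (zlRes ℓ) ≠ 0 := by
  rw [red_den]
  constructor
  · intro h h0
    apply h
    rw [h0, Polynomial.eval₂_zero]
  · intro h
    exact (leadingAt_jqModC (ZMod ℓ)).eval₂_ne_zero one_pos h

/-- `b ↦ b(jq)` is injective on `ℤ_(ℓ)[Y]`. -/
theorem phiJ_jq_injective : Function.Injective (phiJ ℓ jq) := by
  rw [injective_iff_map_eq_zero]
  intro b hb
  by_contra hne
  have hmap : b.map (GaloisRep.ratLocalizedAt ℓ).subtype ≠ 0 :=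
    (Polynomial.map_ne_zero_iff Subtype.val_injective).mpr hne
  rw [phiJ_apply] at hb
  exact (leadingAt_jqModC ℚ).eval₂_ne_zero one_pos hmap hb

/-- `b ↦ b(jq⁻¹)` is injective on `ℤ_(ℓ)[Y]`. -/
theorem phiJ_jq_inv_injective : Function.Injective (phiJ ℓ jq⁻¹) := by
  rw [injective_iff_map_eq_zero]
  intro b hb
  by_contra hne
  have hmap : b.map (GaloisRep.ratLocalizedAt ℓ).subtype ≠ 0 :=
    (Polynomial.map_ne_zero_iff Subtype.val_injective).mpr hne
  rw [phiJ_apply] at hb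
  let _ : Invertible (jq⁻¹ : LaurentSeries ℚ) := invertibleOfNonzero (inv_ne_zero jq_ne_zero)
  have h1 := (Polynomial.eval₂_reverse_eq_zero_iff (HahnSeries.C : ℚ →+* LaurentSeries ℚ)
    (jq⁻¹ : LaurentSeries ℚ) (b.map (GaloisRep.ratLocalizedAt ℓ).subtype)).mpr hb
  rw [invOf_eq_inv, inv_inv] at h1
  have hrev : (b.map (GaloisRep.ratLocalizedAt ℓ).subtype).reverse ≠ 0 := by
    rwa [Ne, Polynomial.reverse_eq_zero]
  exact (leadingAt_jqModC ℚ).eval₂_ne_zero one_pos hrev h1

end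

end Fermat.Agent.S28
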