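import Fermat.Agent.S28.Zl
import Fermat.Agent.S28.ModL.Transc

/-!
# S28, Part C: definitions of the sub-skeleton (owner: helper95).  Complete, no `sorry`.
Do not edit without asking helper95.

Notation: `Zl = ℤ_(ℓ) ⊆ ℚ`, `Lℓ = Zl((q))`, `L = ℚ((q))`, `L̄ = 𝔽_ℓ((q))`.
* `emb : Lℓ → L` (inclusion of coefficients), `red : Lℓ → L̄` (reduction of coefficients);
* `jl = j ∈ Lℓ`, `ul u = u ∈ Lℓ`, `lam u c = c(j, u) ∈ Lℓ` for `c ∈ Zl[Y][X]`,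
  `den b = b(j) ∈ Lℓ` for `b ∈ Zl[Y]`;
* `InE u x` (`x ∈ L`): `x = c(j,u)/b(j)` with `b ≠ 0`;  `IsO u x`: the same with `b ≢ 0 mod ℓ`;
  `Red u x y` (`y ∈ L̄`): `x = c(j,u)/b(j)` with `b̄(j̄) ≠ 0` and `y = c̄(j̄,ū)/b̄(j̄)`;
* `phiJ jj : Zl[Y] → L`, `b ↦ b(jj)` (used with `jj = jq` and `jj = jq⁻¹`);
* `Pkg N ℓ n u Ψ`: the clauses of `exists_package` (file `ModL.lean`).
-/

set_option autoImplicit false
set_option linter.unusedSectionVars false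

noncomputable section

namespace Fermat.Agent.S28

open ModularCurve

section

variable (ℓ : ℕ) [Fact ℓ.Prime]

/-- Inclusion of coefficients `ℤ_(ℓ)((q)) → ℚ((q))`. -/
def emb : LaurentSeries ↥(GaloisRep.ratLocalizedAt ℓ) →+* LaurentSeries ℚ :=
  coeffMap (GaloisRep.ratLocalizedAt ℓ).subtype

/-- Reduction of coefficients `ℤ_(ℓ)((q)) → 𝔽_ℓ((q))`. -/
def red : LaurentSeries ↥(GaloisRep.ratLocalizedAt ℓ) →+* LaurentSeries (ZMod ℓ) :=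
  coeffMap (zlRes ℓ)

/-- `j` over `ℤ_(ℓ)`. -/
def jl : LaurentSeries ↥(GaloisRep.ratLocalizedAt ℓ) := jqModC ↥(GaloisRep.ratLocalizedAt ℓ)

/-- `u` over `ℤ_(ℓ)`. -/
def ul (u : LaurentSeries ℤ) : LaurentSeries ↥(GaloisRep.ratLocalizedAt ℓ) :=
  coeffMap (Int.castRingHom ↥(GaloisRep.ratLocalizedAt ℓ)) u

/-- `c ↦ c(j, u)`, `ℤ_(ℓ)[Y][X] → ℤ_(ℓ)((q))`. -/
def lam (u : LaurentSeries ℤ) (c : Polynomial (Polynomial ↥(GaloisRep.ratLocalizedAt ℓ))) :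
    LaurentSeries ↥(GaloisRep.ratLocalizedAt ℓ) :=
  ev2 (jl ℓ) (ul ℓ u) c

/-- `b ↦ b(j)`, `ℤ_(ℓ)[Y] → ℤ_(ℓ)((q))`. -/
def den (b : Polynomial ↥(GaloisRep.ratLocalizedAt ℓ)) :
    LaurentSeries ↥(GaloisRep.ratLocalizedAt ℓ) :=
  Polynomial.eval₂RingHom
    (HahnSeries.C : ↥(GaloisRep.ratLocalizedAt ℓ) →+* LaurentSeries ↥(GaloisRep.ratLocalizedAt ℓ))
    (jl ℓ) b

/-- `b ↦ b(jj)`, `ℤ_(ℓ)[Y] → ℚ((q))`. -/
def phiJ (jj : LaurentSeries ℚ) : Polynomial ↥(GaloisRep.ratLocalizedAt ℓ) →+* LaurentSeries ℚ :=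
  (Polynomial.eval₂RingHom (HahnSeries.C : ℚ →+* LaurentSeries ℚ) jj).comp
    (Polynomial.mapRingHom (GaloisRep.ratLocalizedAt ℓ).subtype)

theorem phiJ_apply (jj : LaurentSeries ℚ) (b : Polynomial ↥(GaloisRep.ratLocalizedAt ℓ)) :
    phiJ ℓ jj b = (b.map (GaloisRep.ratLocalizedAt ℓ).subtype).eval₂ HahnSeries.C jj := rfl

@[simp] theorem phiJ_X (jj : LaurentSeries ℚ) : phiJ ℓ jj Polynomial.X = jj := by
  simp [phiJ]

@[simp] theorem phiJ_C (jj : LaurentSeries ℚ) (a : ↥(GaloisRep.ratLocalizedAt ℓ)) :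
    phiJ ℓ jj (Polynomial.C a) = HahnSeries.C (a : ℚ) := by
  simp [phiJ]

variable (u : LaurentSeries ℤ)

theorem lam_def (c : Polynomial (Polynomial ↥(GaloisRep.ratLocalizedAt ℓ))) :
    lam ℓ u c = ev2 (jl ℓ) (ul ℓ u) c := rfl

theorem den_def (b : Polynomial ↥(GaloisRep.ratLocalizedAt ℓ)) :
    den ℓ b = b.eval₂ HahnSeries.C (jl ℓ) := rfl

@[simp] theorem lam_zero : lam ℓ u 0 = 0 := ev2_zero _ _
@[simp] theorem lam_one : lam ℓ u 1 = 1 := ev2_one _ _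
theorem lam_add (c c' : Polynomial (Polynomial ↥(GaloisRep.ratLocalizedAt ℓ))) :
    lam ℓ u (c + c') = lam ℓ u c + lam ℓ u c' := ev2_add _ _ _ _
theorem lam_mul (c c' : Polynomial (Polynomial ↥(GaloisRep.ratLocalizedAt ℓ))) :
    lam ℓ u (c * c') = lam ℓ u c * lam ℓ u c' := ev2_mul _ _ _ _
theorem lam_sub (c c' : Polynomial (Polynomial ↥(GaloisRep.ratLocalizedAt ℓ))) :
    lam ℓ u (c - c') = lam ℓ u c - lam ℓ u c' := ev2_sub _ _ _ _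
theorem lam_neg (c : Polynomial (Polynomial ↥(GaloisRep.ratLocalizedAt ℓ))) :
    lam ℓ u (-c) = -lam ℓ u c := ev2_neg _ _ _
theorem lam_pow (c : Polynomial (Polynomial ↥(GaloisRep.ratLocalizedAt ℓ))) (k : ℕ) :
    lam ℓ u (c ^ k) = lam ℓ u c ^ k := ev2_pow _ _ _ _
theorem lam_sum {ι : Type*} (s : Finset ι)
    (f : ι → Polynomial (Polynomial ↥(GaloisRep.ratLocalizedAt ℓ))) :
    lam ℓ u (∑ i ∈ s, f i) = ∑ i ∈ s, lam ℓ u (f i) := ev2_sum _ _ _ _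
theorem lam_prod {ι : Type*} (s : Finset ι)
    (f : ι → Polynomial (Polynomial ↥(GaloisRep.ratLocalizedAt ℓ))) :
    lam ℓ u (∏ i ∈ s, f i) = ∏ i ∈ s, lam ℓ u (f i) := ev2_prod _ _ _ _
/-- `lam (C b) = den b`. -/
theorem lam_C (b : Polynomial ↥(GaloisRep.ratLocalizedAt ℓ)) :
    lam ℓ u (Polynomial.C b) = den ℓ b := ev2_C _ _ _
@[simp] theorem lam_X : lam ℓ u Polynomial.X = ul ℓ u := ev2_X _ _

@[simp] theorem den_zero : den ℓ 0 = 0 := map_zero _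
@[simp] theorem den_one : den ℓ 1 = 1 := map_one _
theorem den_add (b b' : Polynomial ↥(GaloisRep.ratLocalizedAt ℓ)) :
    den ℓ (b + b') = den ℓ b + den ℓ b' := map_add _ _ _
theorem den_mul (b b' : Polynomial ↥(GaloisRep.ratLocalizedAt ℓ)) :
    den ℓ (b * b') = den ℓ b * den ℓ b' := map_mul _ _ _
theorem den_sub (b b' : Polynomial ↥(GaloisRep.ratLocalizedAt ℓ)) :
    den ℓ (b - b') = den ℓ b - den ℓ b' := map_sub _ _ _
theorem den_neg (b : Polynomial ↥(GaloisRep.ratLocalizedAt ℓ)) :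
    den ℓ (-b) = -den ℓ b := map_neg _ _
theorem den_pow (b : Polynomial ↥(GaloisRep.ratLocalizedAt ℓ)) (k : ℕ) :
    den ℓ (b ^ k) = den ℓ b ^ k := map_pow _ _ _
theorem den_prod {ι : Type*} (s : Finset ι) (f : ι → Polynomial ↥(GaloisRep.ratLocalizedAt ℓ)) :
    den ℓ (∏ i ∈ s, f i) = ∏ i ∈ s, den ℓ (f i) := map_prod _ _ _
@[simp] theorem den_X : den ℓ Polynomial.X = jl ℓ := by simp [den]
theorem den_C (a : ↥(GaloisRep.ratLocalizedAt ℓ)) :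
    den ℓ (Polynomial.C a) = HahnSeries.C a := by simp [den]
/-- `den (C ℓ) = ℓ`. -/
theorem den_C_natCast (m : ℕ) :
    den ℓ (Polynomial.C (m : ↥(GaloisRep.ratLocalizedAt ℓ))) =
      (m : LaurentSeries ↥(GaloisRep.ratLocalizedAt ℓ)) := by
  rw [den_C, map_natCast]

/-- `x ∈ ℚ(j, u)`: `x · b(j) = c(j, u)` with `b ≠ 0`. -/
def InE (x : LaurentSeries ℚ) : Prop :=
  ∃ (c : Polynomial (Polynomial ↥(GaloisRep.ratLocalizedAt ℓ)))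
    (b : Polynomial ↥(GaloisRep.ratLocalizedAt ℓ)),
    b ≠ 0 ∧ x * emb ℓ (den ℓ b) = emb ℓ (lam ℓ u c)

/-- `x` is `ℓ`-integral: `x · b(j) = c(j, u)` with `b(j) ≢ 0 mod ℓ`. -/
def IsO (x : LaurentSeries ℚ) : Prop :=
  ∃ (c : Polynomial (Polynomial ↥(GaloisRep.ratLocalizedAt ℓ)))
    (b : Polynomial ↥(GaloisRep.ratLocalizedAt ℓ)),
    red ℓ (den ℓ b) ≠ 0 ∧ x * emb ℓ (den ℓ b) = emb ℓ (lam ℓ u c)

/-- `y` is a reduction mod `ℓ` of `x`. -/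
def Red (x : LaurentSeries ℚ) (y : LaurentSeries (ZMod ℓ)) : Prop :=
  ∃ (c : Polynomial (Polynomial ↥(GaloisRep.ratLocalizedAt ℓ)))
    (b : Polynomial ↥(GaloisRep.ratLocalizedAt ℓ)),
    red ℓ (den ℓ b) ≠ 0 ∧ x * emb ℓ (den ℓ b) = emb ℓ (lam ℓ u c) ∧
      y * red ℓ (den ℓ b) = red ℓ (lam ℓ u c)

end

/-- The clauses of `exists_package` (file `ModL.lean`). -/
structure Pkg (N : ℕ) [NeZero N] (ℓ : ℕ) [Fact ℓ.Prime] (n : ℕ) (u : LaurentSeries ℤ)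
    (Ψ : Polynomial (Polynomial ↥(GaloisRep.ratLocalizedAt ℓ))) : Prop where
  monic : Ψ.Monic
  natDegree : Ψ.natDegree = n
  root : ev2 (jqModC ℚ) (coeffMap (Int.castRingHom ℚ) u)
    (Ψ.map (Polynomial.mapRingHom (GaloisRep.ratLocalizedAt ℓ).subtype)) = 0
  indep : ∀ c : Polynomial (Polynomial (ZMod ℓ)), c.natDegree < n →
    ev2 (jqModC (ZMod ℓ)) (coeffMap (Int.castRingHom (ZMod ℓ)) u) c = 0 → c = 0
  gen : ∀ (d : ℕ) [NeZero d], d ∣ N → ∃ c a : Polynomial (Polynomial ℚ),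
    ev2 (jqModC ℚ) (coeffMap (Int.castRingHom ℚ) u) c ≠ 0 ∧
    ev2 (jqModC ℚ) (coeffMap (Int.castRingHom ℚ) u) c * qExpand ℚ d (jqModC ℚ) =
      ev2 (jqModC ℚ) (coeffMap (Int.castRingHom ℚ) u) a

end Fermat.Agent.S28
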