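import Fermat.Agent.S28.Charts.Inv

/-!
# S28, Part C, step E1a: `{x | InE x}` is a subfield of `ℚ((q))` containing `ℚ`.
(statements frozen)
-/

set_option autoImplicit false
set_option linter.unusedSectionVars false

noncomputable section

namespace Fermat.Agent.S28

open ModularCurve

section

variable (ℓ : ℕ) [Fact ℓ.Prime] (u : LaurentSeries ℤ)

theorem inE_zero : InE ℓ u 0 := by
  refine ⟨0, 1, one_ne_zero, ?_⟩
  rw [zero_mul, lam_zero, map_zero]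

theorem inE_one : InE ℓ u 1 := by
  refine ⟨1, 1, one_ne_zero, ?_⟩
  rw [den_one, lam_one, one_mul]

theorem inE_emb_lam (c : Polynomial (Polynomial ↥(GaloisRep.ratLocalizedAt ℓ))) :
    InE ℓ u (emb ℓ (lam ℓ u c)) := by
  refine ⟨c, 1, one_ne_zero, ?_⟩
  rw [den_one, map_one, mul_one]

/-- Rational constants. -/
theorem inE_C (a : ℚ) : InE ℓ u (HahnSeries.C a) := by
  refine ⟨Polynomial.C (Polynomial.C ((a.num : ℤ) : ↥(GaloisRep.ratLocalizedAt ℓ))),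
    Polynomial.C ((a.den : ℕ) : ↥(GaloisRep.ratLocalizedAt ℓ)), ?_, ?_⟩
  · intro h0
    have h1 : ((a.den : ℕ) : ↥(GaloisRep.ratLocalizedAt ℓ)) = 0 :=
      Polynomial.C_eq_zero.mp h0
    have h2 : ((a.den : ℕ) : ℚ) = 0 := by
      have h3 := congrArg (GaloisRep.ratLocalizedAt ℓ).subtype h1
      rwa [map_natCast, map_zero] at h3
    exact a.den_ne_zero (by exact_mod_cast h2)
  · rw [den_C_natCast, map_natCast, lam_C, den_C, map_intCast, map_intCast,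
      ← map_natCast (HahnSeries.C : ℚ →+* LaurentSeries ℚ) a.den,
      ← map_intCast (HahnSeries.C : ℚ →+* LaurentSeries ℚ) a.num, ← map_mul,
      Rat.mul_den_eq_num]

variable {ℓ u}

theorem InE.add {x y : LaurentSeries ℚ} (hx : InE ℓ u x) (hy : InE ℓ u y) : InE ℓ u (x + y) := by
  obtain ⟨c₁, b₁, hb₁, h₁⟩ := hx
  obtain ⟨c₂, b₂, hb₂, h₂⟩ := hy
  refine ⟨c₁ * Polynomial.C b₂ + c₂ * Polynomial.C b₁, b₁ * b₂, mul_ne_zero hb₁ hb₂, ?_⟩
  rw [den_mul, lam_add, lam_mul, lam_mul, lam_C, lam_C, map_mul, map_add, map_mul, map_mul,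
    ← h₁, ← h₂]
  ring

theorem InE.mul {x y : LaurentSeries ℚ} (hx : InE ℓ u x) (hy : InE ℓ u y) : InE ℓ u (x * y) := by
  obtain ⟨c₁, b₁, hb₁, h₁⟩ := hx
  obtain ⟨c₂, b₂, hb₂, h₂⟩ := hy
  refine ⟨c₁ * c₂, b₁ * b₂, mul_ne_zero hb₁ hb₂, ?_⟩
  rw [den_mul, lam_mul, map_mul, map_mul, ← h₁, ← h₂]
  ring

theorem InE.neg {x : LaurentSeries ℚ} (hx : InE ℓ u x) : InE ℓ u (-x) := by
  obtain ⟨c₁, b₁, hb₁, h₁⟩ := hx
  refine ⟨-c₁, b₁, hb₁, ?_⟩
  rw [lam_neg, map_neg, ← h₁, neg_mul]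

end

section

variable {N : ℕ} [NeZero N] {ℓ : ℕ} [Fact ℓ.Prime] {n : ℕ} {u : LaurentSeries ℤ}
  {Ψ : Polynomial (Polynomial ↥(GaloisRep.ratLocalizedAt ℓ))}

/-- A quotient of two elements of `Λ` is in `E`. -/
theorem Pkg.inE_of_mul_lam (hP : Pkg N ℓ n u Ψ) {x : LaurentSeries ℚ}
    (c a : Polynomial (Polynomial ↥(GaloisRep.ratLocalizedAt ℓ))) (hc : lam ℓ u c ≠ 0)
    (h : x * emb ℓ (lam ℓ u c) = emb ℓ (lam ℓ u a)) : InE ℓ u x := by
  obtain ⟨c', b, hb, hcb⟩ := hP.lam_inv c hc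
  refine ⟨a * c', b, hb, ?_⟩
  rw [← hcb, map_mul, lam_mul, map_mul, ← h]
  ring

theorem Pkg.inE_inv (hP : Pkg N ℓ n u Ψ) {x : LaurentSeries ℚ} (hx : InE ℓ u x) :
    InE ℓ u x⁻¹ := by
  by_cases hx0 : x = 0
  · rw [hx0, inv_zero]
    exact inE_zero ℓ u
  · obtain ⟨c, b, hb, h⟩ := hx
    have hden : emb ℓ (den ℓ b) ≠ 0 := by
      intro h0
      rw [← map_zero (emb ℓ)] at h0
      exact den_ne_zero ℓ hb (emb_injective ℓ h0)
    have hlam : lam ℓ u c ≠ 0 := by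
      intro h0
      rw [h0, map_zero] at h
      exact mul_ne_zero hx0 hden h
    refine hP.inE_of_mul_lam c (Polynomial.C b) hlam ?_
    rw [lam_C, ← h, ← mul_assoc, inv_mul_cancel₀ hx0, one_mul]

end

end Fermat.Agent.S28
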