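import Fermat.Agent.S28.Charts.Basic
import Fermat.Agent.S28.Charts.Sat

/-!
# S28, Part C, step O1: the ring `𝒪 = {x | IsO x}` and the reduction map `𝒪 → 𝔽_ℓ((q))`.
(statements and the data of the two definitions frozen)
-/

set_option autoImplicit false
set_option linter.unusedSectionVars false

noncomputable section

namespace Fermat.Agent.S28

open ModularCurve

section

variable (ℓ : ℕ) [Fact ℓ.Prime] (u : LaurentSeries ℤ)

variable {ℓ u}

/-- The reduction is unique. -/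
theorem Red.unique {x : LaurentSeries ℚ} {y y' : LaurentSeries (ZMod ℓ)}
    (h : Red ℓ u x y) (h' : Red ℓ u x y') : y = y' := by
  obtain ⟨c₁, b₁, hb₁, hx₁, hy₁⟩ := h
  obtain ⟨c₂, b₂, hb₂, hx₂, hy₂⟩ := h'
  have e : emb ℓ (lam ℓ u c₁ * den ℓ b₂) = emb ℓ (lam ℓ u c₂ * den ℓ b₁) := by
    rw [map_mul, map_mul, ← hx₁, ← hx₂]
    ring
  have e' := emb_injective ℓ e
  have r : red ℓ (lam ℓ u c₁) * red ℓ (den ℓ b₂) = red ℓ (lam ℓ u c₂) * red ℓ (den ℓ b₁) := by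
    rw [← map_mul, ← map_mul, e']
  have key : (y - y') * (red ℓ (den ℓ b₁) * red ℓ (den ℓ b₂)) = 0 := by
    linear_combination red ℓ (den ℓ b₂) * hy₁ - red ℓ (den ℓ b₁) * hy₂ + r
  rcases mul_eq_zero.mp key with h0 | h0
  · exact sub_eq_zero.mp h0
  · exact absurd h0 (mul_ne_zero hb₁ hb₂)

theorem Red.isO {x : LaurentSeries ℚ} {y : LaurentSeries (ZMod ℓ)} (h : Red ℓ u x y) :
    IsO ℓ u x := by
  obtain ⟨c, b, hb, hx, -⟩ := h
  exact ⟨c, b, hb, hx⟩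

theorem IsO.exists_red {x : LaurentSeries ℚ} (h : IsO ℓ u x) :
    ∃ y : LaurentSeries (ZMod ℓ), Red ℓ u x y := by
  obtain ⟨c, b, hb, hx⟩ := h
  exact ⟨red ℓ (lam ℓ u c) * (red ℓ (den ℓ b))⁻¹, c, b, hb, hx, inv_mul_cancel_right₀ hb _⟩

theorem IsO.inE {x : LaurentSeries ℚ} (h : IsO ℓ u x) : InE ℓ u x := by
  obtain ⟨c, b, hb, hx⟩ := h
  refine ⟨c, b, ?_, hx⟩
  rintro rfl
  exact hb (by rw [den_zero, map_zero])

theorem Red.add {x x' : LaurentSeries ℚ} {y y' : LaurentSeries (ZMod ℓ)}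
    (h : Red ℓ u x y) (h' : Red ℓ u x' y') : Red ℓ u (x + x') (y + y') := by
  obtain ⟨c₁, b₁, hb₁, hx₁, hy₁⟩ := h
  obtain ⟨c₂, b₂, hb₂, hx₂, hy₂⟩ := h'
  refine ⟨c₁ * Polynomial.C b₂ + c₂ * Polynomial.C b₁, b₁ * b₂, ?_, ?_, ?_⟩
  · rw [den_mul, map_mul]
    exact mul_ne_zero hb₁ hb₂
  · rw [den_mul, lam_add, lam_mul, lam_mul, lam_C, lam_C, map_mul, map_add, map_mul, map_mul]
    linear_combination emb ℓ (den ℓ b₂) * hx₁ + emb ℓ (den ℓ b₁) * hx₂
  · rw [den_mul, lam_add, lam_mul, lam_mul, lam_C, lam_C, map_mul, map_add, map_mul, map_mul]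
    linear_combination red ℓ (den ℓ b₂) * hy₁ + red ℓ (den ℓ b₁) * hy₂

theorem Red.mul {x x' : LaurentSeries ℚ} {y y' : LaurentSeries (ZMod ℓ)}
    (h : Red ℓ u x y) (h' : Red ℓ u x' y') : Red ℓ u (x * x') (y * y') := by
  obtain ⟨c₁, b₁, hb₁, hx₁, hy₁⟩ := h
  obtain ⟨c₂, b₂, hb₂, hx₂, hy₂⟩ := h'
  refine ⟨c₁ * c₂, b₁ * b₂, ?_, ?_, ?_⟩
  · rw [den_mul, map_mul]
    exact mul_ne_zero hb₁ hb₂
  · rw [den_mul, lam_mul, map_mul, map_mul, ← hx₁, ← hx₂]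
    ring
  · rw [den_mul, lam_mul, map_mul, map_mul, ← hy₁, ← hy₂]
    ring

theorem Red.neg {x : LaurentSeries ℚ} {y : LaurentSeries (ZMod ℓ)}
    (h : Red ℓ u x y) : Red ℓ u (-x) (-y) := by
  obtain ⟨c, b, hb, hx, hy⟩ := h
  refine ⟨-c, b, hb, ?_, ?_⟩
  · rw [lam_neg, map_neg, ← hx, neg_mul]
  · rw [lam_neg, map_neg, ← hy, neg_mul]

variable (ℓ u)

/-- Elements of `Λ` reduce coefficientwise. -/
theorem red_emb_lam (c : Polynomial (Polynomial ↥(GaloisRep.ratLocalizedAt ℓ))) :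
    Red ℓ u (emb ℓ (lam ℓ u c)) (red ℓ (lam ℓ u c)) := by
  refine ⟨c, 1, ?_, ?_, ?_⟩
  · rw [den_one, map_one]
    exact one_ne_zero
  · rw [den_one, map_one, mul_one]
  · rw [den_one, map_one, mul_one]

theorem red_zero_zero : Red ℓ u 0 0 := by
  have h := red_emb_lam ℓ u 0
  rwa [lam_zero, map_zero, map_zero] at h

theorem red_one_one : Red ℓ u 1 1 := by
  have h := red_emb_lam ℓ u 1
  rwa [lam_one, map_one, map_one] at h

/-- The subring `𝒪` of `ℓ`-integral elements of `ℚ((q))`. -/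
def Osub : Subring (LaurentSeries ℚ) where
  carrier := {x | IsO ℓ u x}
  mul_mem' := by
    intro a b ha hb
    obtain ⟨y, hy⟩ := IsO.exists_red ha
    obtain ⟨y', hy'⟩ := IsO.exists_red hb
    exact (hy.mul hy').isO
  one_mem' := by
    exact (red_one_one ℓ u).isO
  add_mem' := by
    intro a b ha hb
    obtain ⟨y, hy⟩ := IsO.exists_red ha
    obtain ⟨y', hy'⟩ := IsO.exists_red hb
    exact (hy.add hy').isO
  zero_mem' := by
    exact (red_zero_zero ℓ u).isO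
  neg_mem' := by
    intro a ha
    obtain ⟨y, hy⟩ := IsO.exists_red ha
    exact hy.neg.isO

theorem mem_Osub {x : LaurentSeries ℚ} : x ∈ Osub ℓ u ↔ IsO ℓ u x := Iff.rfl

/-- The defining property of the chosen reduction. -/
private theorem co_aux_spec (x : ↥(Osub ℓ u)) :
    Red ℓ u (x : LaurentSeries ℚ) (Classical.choose (IsO.exists_red ((mem_Osub ℓ u).mp x.2))) :=
  Classical.choose_spec (IsO.exists_red ((mem_Osub ℓ u).mp x.2))

/-- The reduction map `𝒪 → 𝔽_ℓ((q))`. -/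
def redO : ↥(Osub ℓ u) →+* LaurentSeries (ZMod ℓ) where
  toFun x := Classical.choose (IsO.exists_red ((mem_Osub ℓ u).mp x.2))
  map_one' := by
    exact Red.unique (co_aux_spec ℓ u 1) (red_one_one ℓ u)
  map_mul' := by
    intro x y
    exact Red.unique (co_aux_spec ℓ u (x * y)) ((co_aux_spec ℓ u x).mul (co_aux_spec ℓ u y))
  map_zero' := by
    exact Red.unique (co_aux_spec ℓ u 0) (red_zero_zero ℓ u)
  map_add' := by
    intro x y
    exact Red.unique (co_aux_spec ℓ u (x + y)) ((co_aux_spec ℓ u x).add (co_aux_spec ℓ u y))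

theorem redO_spec (x : ↥(Osub ℓ u)) : Red ℓ u (x : LaurentSeries ℚ) (redO ℓ u x) :=
  co_aux_spec ℓ u x

theorem redO_eq {x : ↥(Osub ℓ u)} {y : LaurentSeries (ZMod ℓ)}
    (h : Red ℓ u (x : LaurentSeries ℚ) y) : redO ℓ u x = y :=
  Red.unique (redO_spec ℓ u x) h

end

end Fermat.Agent.S28
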