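import Fermat.Agent.S28.Charts.Normal
import Fermat.Agent.S28.Charts.O

/-!
# S28, Part C, step O3: `𝒪` is integrally closed in `E`.  (statement frozen)
-/

set_option autoImplicit false
set_option linter.unusedSectionVars false

noncomputable section

namespace Fermat.Agent.S28

open ModularCurve

/-- Abstract core of the argument: if `x` is integral over a subring `O`, `ρ : O → F` is a ring
hom to a domain killing `s ∈ O`, and `s * x` lies in `O`, then `ρ (s * x) = 0`. -/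
private theorem cic_aux_red_zero {L : Type*} [CommRing L] (O : Subring L) {F : Type*}
    [CommRing F] [IsDomain F] (ρ : ↥O →+* F) (s : ↥O) (hs : ρ s = 0) (x : L)
    (hint : IsIntegral ↥O x) (e' : ↥O) (he : (e' : L) = (s : L) * x) : ρ e' = 0 := by
  obtain ⟨p, hp, hpx⟩ := hint
  have h1 : Polynomial.eval₂ (algebraMap ↥O L) ((algebraMap ↥O L) s * x)
      (Polynomial.scaleRoots p s) = 0 :=
    Polynomial.scaleRoots_eval₂_eq_zero _ hpx
  have h2 : Polynomial.eval₂ O.subtype (O.subtype e') (Polynomial.scaleRoots p s) = 0 := by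
    have h2' : O.subtype e' = algebraMap ↥O L s * x := he
    rw [h2']
    exact h1
  rw [Polynomial.eval₂_at_apply] at h2
  have h3 : (Polynomial.scaleRoots p s).eval e' = 0 := Subtype.ext h2
  have h4 : ((Polynomial.scaleRoots p s).map ρ).eval (ρ e') = 0 := by
    rw [Polynomial.eval_map_apply, h3, map_zero]
  have h5 : (Polynomial.scaleRoots p s).map ρ = Polynomial.X ^ p.natDegree := by
    ext i
    rw [Polynomial.coeff_map, Polynomial.coeff_scaleRoots, Polynomial.coeff_X_pow, map_mul,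
      map_pow, hs]
    split_ifs with hi
    · rw [hi, Nat.sub_self, pow_zero, mul_one, Polynomial.Monic.coeff_natDegree hp, map_one]
    · rcases Nat.lt_or_gt_of_ne hi with hlt | hgt
      · rw [zero_pow (by omega), mul_zero]
      · rw [Polynomial.coeff_eq_zero_of_natDegree_lt hgt, map_zero, zero_mul]
  rw [h5, Polynomial.eval_pow, Polynomial.eval_X] at h4
  exact eq_zero_of_pow_eq_zero h4

section

variable {N : ℕ} [NeZero N] {ℓ : ℕ} [Fact ℓ.Prime] {n : ℕ} {u : LaurentSeries ℤ}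
  {Ψ : Polynomial (Polynomial ↥(GaloisRep.ratLocalizedAt ℓ))}

theorem Pkg.isO_of_isIntegral (hP : Pkg N ℓ n u Ψ) {x : LaurentSeries ℚ} (hx : InE ℓ u x)
    (hint : IsIntegral ↥(Osub ℓ u) x) : IsO ℓ u x := by
  by_cases hx0 : x = 0
  · rw [hx0]
    exact (Osub ℓ u).zero_mem
  obtain ⟨m, c, b, hb, hc, hxeq⟩ := hP.inE_normal hx hx0
  have hℓL : (ℓ : LaurentSeries ℚ) ≠ 0 := by
    rw [← map_natCast (HahnSeries.C : ℚ →+* LaurentSeries ℚ) ℓ]
    intro h
    have h' : ((ℓ : ℕ) : ℚ) = 0 := HahnSeries.C_injective (h.trans (map_zero _).symm)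
    exact (Fact.out : ℓ.Prime).ne_zero (by exact_mod_cast h')
  rcases le_or_gt 0 m with hm | hm
  · obtain ⟨k, rfl⟩ := Int.eq_ofNat_of_zero_le hm
    refine ⟨Polynomial.C (Polynomial.C (ℓ : ↥(GaloisRep.ratLocalizedAt ℓ))) ^ k * c, b, hb, ?_⟩
    rw [hxeq, lam_mul, lam_pow, lam_C, den_C_natCast, map_mul, map_pow, map_natCast,
      zpow_natCast]
  · exfalso
    obtain ⟨t, ht⟩ : ∃ t : ℕ, m = -(t : ℤ) := ⟨(-m).toNat, by omega⟩
    have ht1 : 1 ≤ t := by omega
    have hβ : emb ℓ (den ℓ b) ≠ 0 := by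
      intro h
      have h' : den ℓ b = 0 := emb_injective ℓ (h.trans (map_zero _).symm)
      exact hb (by rw [h', map_zero])
    have he_isO : IsO ℓ u (emb ℓ (lam ℓ u c) / emb ℓ (den ℓ b)) :=
      ⟨c, b, hb, div_mul_cancel₀ _ hβ⟩
    have he_red : Red ℓ u (emb ℓ (lam ℓ u c) / emb ℓ (den ℓ b))
        (red ℓ (lam ℓ u c) / red ℓ (den ℓ b)) :=
      ⟨c, b, hb, div_mul_cancel₀ _ hβ, div_mul_cancel₀ _ hb⟩
    have he_eq : emb ℓ (lam ℓ u c) / emb ℓ (den ℓ b) = (ℓ : LaurentSeries ℚ) ^ t * x := by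
      rw [div_eq_iff hβ, mul_assoc, hxeq, ht, zpow_neg, zpow_natCast, ← mul_assoc,
        mul_inv_cancel₀ (pow_ne_zero _ hℓL), one_mul]
    have hs : redO ℓ u ((ℓ : ↥(Osub ℓ u)) ^ t) = 0 := by
      rw [map_pow, map_natCast,
        ← map_natCast (HahnSeries.C : ZMod ℓ →+* LaurentSeries (ZMod ℓ)) ℓ, ZMod.natCast_self,
        map_zero, zero_pow (by omega)]
    have key := cic_aux_red_zero (Osub ℓ u) (redO ℓ u) ((ℓ : ↥(Osub ℓ u)) ^ t) hs x hint
      ⟨_, he_isO⟩ (by simpa using he_eq)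
    rw [redO_eq ℓ u (x := ⟨_, he_isO⟩) he_red] at key
    exact div_ne_zero hc hb key

end

end Fermat.Agent.S28
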