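import Fermat.Agent.S28.Charts.Lam

/-!
# S28, Part C, step C2: `Λ` is integral over `ℤ_(ℓ)[j]`; inversion.  (statements frozen)
-/

set_option autoImplicit false
set_option linter.unusedSectionVars false

noncomputable section

namespace Fermat.Agent.S28

open ModularCurve

/-- Values of polynomials at an integral element are integral. -/
private theorem cinv_aux_eval₂_integral {R A : Type*} [CommRing R] [CommRing A] (φ : R →+* A)
    {x : A} (hx : φ.IsIntegralElem x) (c : Polynomial R) : φ.IsIntegralElem (c.eval₂ φ x) := by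
  induction c using Polynomial.induction_on with
  | C a =>
    rw [Polynomial.eval₂_C]
    exact φ.isIntegralElem_map
  | add p q hp hq =>
    rw [Polynomial.eval₂_add]
    exact RingHom.IsIntegralElem.add φ hp hq
  | monomial k a ih =>
    rw [pow_succ, ← mul_assoc, Polynomial.eval₂_mul, Polynomial.eval₂_X]
    exact RingHom.IsIntegralElem.mul φ ih hx

/-- A nonzero element of a domain which is a root of a nonzero polynomial is a root of a
polynomial with nonzero constant coefficient. -/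
private theorem cinv_aux_strip {R A : Type*} [CommRing R] [CommRing A] [IsDomain A] (φ : R →+* A)
    {x : A} (hx : x ≠ 0) : ∀ (d : ℕ) (P : Polynomial R), P.natDegree ≤ d → P ≠ 0 →
      P.eval₂ φ x = 0 → ∃ P₁ : Polynomial R, P₁.eval₂ φ x = 0 ∧ P₁.coeff 0 ≠ 0 := by
  intro d
  induction d with
  | zero =>
    intro P hd hP0 hPx
    refine ⟨P, hPx, fun h0 => hP0 ?_⟩
    rw [Polynomial.eq_C_of_natDegree_le_zero hd, h0, map_zero]
  | succ d ih =>
    intro P hd hP0 hPx
    by_cases h0 : P.coeff 0 = 0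
    · have hdiv : P.divX * Polynomial.X = P := by
        have := Polynomial.divX_mul_X_add P
        rwa [h0, map_zero, add_zero] at this
      have hQ0 : P.divX ≠ 0 := by
        intro hq
        rw [hq, zero_mul] at hdiv
        exact hP0 hdiv.symm
      have hQx : P.divX.eval₂ φ x = 0 := by
        have h1 : P.divX.eval₂ φ x * x = 0 := by
          rw [← hPx]
          conv_rhs => rw [← hdiv]
          rw [Polynomial.eval₂_mul, Polynomial.eval₂_X]
        exact (mul_eq_zero.mp h1).resolve_right hx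
      have hQd : P.divX.natDegree ≤ d := by
        rw [Polynomial.natDegree_divX_eq_natDegree_tsub_one]
        omega
      exact ih P.divX hQd hQ0 hQx
    · exact ⟨P, hPx, h0⟩

section

variable {N : ℕ} [NeZero N] {ℓ : ℕ} [Fact ℓ.Prime] {n : ℕ} {u : LaurentSeries ℤ}
  {Ψ : Polynomial (Polynomial ↥(GaloisRep.ratLocalizedAt ℓ))}

/-- Every `λ = c(j, u) ∈ Λ` is a root of a monic `P ∈ ℤ_(ℓ)[Y][T]` (with `Y ↦ j`). -/
theorem Pkg.lam_integral (hP : Pkg N ℓ n u Ψ) (c : Polynomial (Polynomial ↥(GaloisRep.ratLocalizedAt ℓ))) :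
    ∃ P : Polynomial (Polynomial ↥(GaloisRep.ratLocalizedAt ℓ)),
      P.Monic ∧ ev2 (jl ℓ) (lam ℓ u c) P = 0 := by
  have hul : (Polynomial.eval₂RingHom (HahnSeries.C : ↥(GaloisRep.ratLocalizedAt ℓ) →+*
      LaurentSeries ↥(GaloisRep.ratLocalizedAt ℓ)) (jl ℓ)).IsIntegralElem (ul ℓ u) :=
    ⟨Ψ, hP.monic, hP.lam_psi⟩
  exact cinv_aux_eval₂_integral _ hul c

/-- Inversion: every nonzero `λ ∈ Λ` divides some `b(j)`, `b ≠ 0`, in `Λ`. -/
theorem Pkg.lam_inv (hP : Pkg N ℓ n u Ψ) (c : Polynomial (Polynomial ↥(GaloisRep.ratLocalizedAt ℓ)))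
    (h : lam ℓ u c ≠ 0) :
    ∃ (c' : Polynomial (Polynomial ↥(GaloisRep.ratLocalizedAt ℓ))) (b : Polynomial ↥(GaloisRep.ratLocalizedAt ℓ)),
      b ≠ 0 ∧ lam ℓ u c * lam ℓ u c' = den ℓ b := by
  set φ := Polynomial.eval₂RingHom (HahnSeries.C : ↥(GaloisRep.ratLocalizedAt ℓ) →+*
      LaurentSeries ↥(GaloisRep.ratLocalizedAt ℓ)) (jl ℓ) with hφ
  obtain ⟨P, hPm, hPx⟩ := hP.lam_integral c
  have hPx' : P.eval₂ φ (lam ℓ u c) = 0 := hPx
  obtain ⟨P₁, hP₁x, hP₁0⟩ := cinv_aux_strip φ h P.natDegree P le_rfl hPm.ne_zero hPx'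
  have hcomp : (ev2Hom (jl ℓ) (ul ℓ u)).comp Polynomial.C = φ :=
    RingHom.ext fun b => Polynomial.eval₂_C φ (ul ℓ u)
  have hlam : lam ℓ u (P₁.divX.eval₂ Polynomial.C c) = P₁.divX.eval₂ φ (lam ℓ u c) := by
    have := Polynomial.hom_eval₂ P₁.divX Polynomial.C (ev2Hom (jl ℓ) (ul ℓ u)) c
    rw [hcomp] at this
    exact this
  refine ⟨P₁.divX.eval₂ Polynomial.C c, -P₁.coeff 0, neg_ne_zero.mpr hP₁0, ?_⟩
  rw [hlam, den_neg]
  have hsplit : P₁.divX.eval₂ φ (lam ℓ u c) * lam ℓ u c + φ (P₁.coeff 0) = 0 := by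
    rw [← hP₁x]
    conv_rhs => rw [← Polynomial.divX_mul_X_add P₁]
    rw [Polynomial.eval₂_add, Polynomial.eval₂_mul, Polynomial.eval₂_X, Polynomial.eval₂_C]
  have hden : den ℓ (P₁.coeff 0) = φ (P₁.coeff 0) := rfl
  rw [hden]
  linear_combination hsplit

end

end Fermat.Agent.S28
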