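import Mathlib

/-!
# S28, Part C, step C4: the abstract integrality lemma (pure algebra).  (statement frozen)

`RingHom.IsIntegralElem f x` means `∃ p, p.Monic ∧ p.eval₂ f x = 0`.
-/

set_option autoImplicit false

namespace Fermat.Agent.S28

open Polynomial in
/-- If `a • y` is integral over the integrally closed domain `R` (`a ≠ 0`), then `y` is algebraic
over `K = Frac R` and the coefficients `m_i` of its minimal polynomial over `K` satisfy
`m_i * a ^ (deg m - i) ∈ R`. -/
private theorem k8_aux_coeff {R K L : Type*} [CommRing R] [IsDomain R] [IsIntegrallyClosed R]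
    [Field K] [Algebra R K] [IsFractionRing R K] [Field L] [Algebra K L] [Algebra R L]
    [IsScalarTower R K L] (y : L) (a : R) (ha : a ≠ 0) (hy : IsIntegral R (a • y)) :
    IsIntegral K y ∧ ∀ i : ℕ, ∃ s : R, algebraMap R K s =
      (minpoly K y).coeff i * (algebraMap R K a) ^ ((minpoly K y).natDegree - i) := by
  obtain ⟨G, hGm, hG⟩ := hy
  have hA0 : algebraMap R K a ≠ 0 :=
    (map_ne_zero_iff _ (IsFractionRing.injective R K)).2 ha
  have hGKm : (G.map (algebraMap R K)).Monic := hGm.map _
  have hroot : aeval (a • y) (G.map (algebraMap R K)) = 0 := by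
    rw [aeval_map_algebraMap, aeval_def]; exact hG
  have hyA : algebraMap K L (algebraMap R K a)⁻¹ * (a • y) = y := by
    rw [Algebra.smul_def, IsScalarTower.algebraMap_apply R K L, ← mul_assoc, ← map_mul,
      inv_mul_cancel₀ hA0, map_one, one_mul]
  have hroot' : aeval y (scaleRoots (G.map (algebraMap R K)) (algebraMap R K a)⁻¹) = 0 := by
    have := scaleRoots_aeval_eq_zero (r := (algebraMap R K a)⁻¹) hroot
    rwa [hyA] at this
  have hint : IsIntegral K y :=
    ⟨scaleRoots (G.map (algebraMap R K)) (algebraMap R K a)⁻¹,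
      (monic_scaleRoots_iff _).2 hGKm, hroot'⟩
  refine ⟨hint, ?_⟩
  have hdvd : minpoly K y ∣ scaleRoots (G.map (algebraMap R K)) (algebraMap R K a)⁻¹ :=
    minpoly.dvd K y hroot'
  have hdvd2 : scaleRoots (minpoly K y) (algebraMap R K a) ∣ G.map (algebraMap R K) := by
    have := scaleRoots_dvd _ _ (r := algebraMap R K a) hdvd
    rwa [← scaleRoots_mul, inv_mul_cancel₀ hA0, scaleRoots_one] at this
  obtain ⟨g', hg'⟩ := IsIntegrallyClosed.eq_map_mul_C_of_dvd K hGm hdvd2
  have hmon : (scaleRoots (minpoly K y) (algebraMap R K a)).Monic :=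
    (monic_scaleRoots_iff _).2 (minpoly.monic hint)
  rw [hmon.leadingCoeff, C_1, mul_one] at hg'
  intro i
  refine ⟨g'.coeff i, ?_⟩
  rw [← coeff_map, hg', coeff_scaleRoots]

open Polynomial in
/-- Algebra version of the main statement. -/
private theorem k8_aux_main {R K L : Type*} [CommRing R] [IsDomain R] [IsIntegrallyClosed R]
    [Field K] [Algebra R K] [IsFractionRing R K] [Field L] [Algebra K L] [Algebra R L]
    [IsScalarTower R K L] (p β : R) (hp : Prime p) (hβ : ¬ p ∣ β) (y : L)
    (h1 : IsIntegral R (p • y)) (h2 : IsIntegral R (β • y)) : IsIntegral R y := by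
  have hp0 : p ≠ 0 := hp.ne_zero
  have hβ0 : β ≠ 0 := fun h => hβ (h ▸ dvd_zero p)
  have hinjK : Function.Injective (algebraMap R K) := IsFractionRing.injective R K
  have hP0 : algebraMap R K p ≠ 0 := (map_ne_zero_iff _ hinjK).2 hp0
  obtain ⟨hint, hs⟩ := k8_aux_coeff (K := K) y p hp0 h1
  obtain ⟨-, ht⟩ := k8_aux_coeff (K := K) y β hβ0 h2
  have hlift : minpoly K y ∈ lifts (algebraMap R K) := by
    rw [lifts_iff_coeff_lifts]
    intro i
    obtain ⟨s, hs⟩ := hs i
    obtain ⟨t, ht⟩ := ht i
    have hk : β ^ ((minpoly K y).natDegree - i) * s = p ^ ((minpoly K y).natDegree - i) * t := by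
      apply hinjK
      rw [map_mul, map_mul, map_pow, map_pow, hs, ht]
      ring
    have hdvd : p ^ ((minpoly K y).natDegree - i) ∣ s := by
      refine hp.pow_dvd_of_dvd_mul_left (a := β ^ ((minpoly K y).natDegree - i)) _
        (fun h => hβ (hp.dvd_of_dvd_pow h)) ?_
      rw [hk]
      exact dvd_mul_right _ _
    obtain ⟨w, rfl⟩ := hdvd
    refine ⟨w, ?_⟩
    rw [map_mul, map_pow, mul_comm] at hs
    exact mul_right_cancel₀ (pow_ne_zero _ hP0) hs
  obtain ⟨W, hWmap, -, hWm⟩ := lifts_and_natDegree_eq_and_monic hlift (minpoly.monic hint)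
  refine ⟨W, hWm, ?_⟩
  rw [← aeval_def, ← aeval_map_algebraMap K, hWmap, minpoly.aeval]

/-- Let `R` be an integrally closed domain, `φ : R → L` an injective ring hom to a field, `p` a
prime element of `R` and `β ∈ R` not divisible by `p`.  If `φ(p)·y` and `φ(β)·y` are integral
over `R` then so is `y`. -/
theorem isIntegralElem_of_mul {R L : Type*} [CommRing R] [IsDomain R] [IsIntegrallyClosed R]
    [Field L] (φ : R →+* L) (hφ : Function.Injective φ) (p β : R) (hp : Prime p)
    (hβ : ¬ p ∣ β) (y : L) (h1 : φ.IsIntegralElem (φ p * y))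
    (h2 : φ.IsIntegralElem (φ β * y)) : φ.IsIntegralElem y := by
  let _ : Algebra R L := φ.toAlgebra
  have hinj : Function.Injective (algebraMap R L) := hφ
  have : FaithfulSMul R L := (faithfulSMul_iff_algebraMap_injective R L).mpr hinj
  let _ : Algebra (FractionRing R) L := FractionRing.liftAlgebra R L
  have : IsScalarTower R (FractionRing R) L := FractionRing.isScalarTower_liftAlgebra R L
  have h1' : IsIntegral R (p • y) := by
    rw [Algebra.smul_def]; exact h1
  have h2' : IsIntegral R (β • y) := by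
    rw [Algebra.smul_def]; exact h2
  exact k8_aux_main (K := FractionRing R) p β hp hβ y h1' h2'

end Fermat.Agent.S28
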