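import Fermat.Agent.S28.Charts.Lam

/-!
# S28, Part C, step E2: normal form `x = ℓ^m · λ / b(j)` with `λ`, `b(j)` nonzero mod `ℓ`.
(statement frozen)
-/

set_option autoImplicit false
set_option linter.unusedSectionVars false

noncomputable section

namespace Fermat.Agent.S28

open ModularCurve

section

variable {N : ℕ} [NeZero N] {ℓ : ℕ} [Fact ℓ.Prime] {n : ℕ} {u : LaurentSeries ℤ}
  {Ψ : Polynomial (Polynomial ↥(GaloisRep.ratLocalizedAt ℓ))}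

/-- The prime `ℓ` is nonzero in `ℚ((q))`. -/
private theorem cnormal_aux_natCast_ne_zero (ℓ : ℕ) [Fact ℓ.Prime] :
    (ℓ : LaurentSeries ℚ) ≠ 0 := by
  intro h
  have h1 : (HahnSeries.C : ℚ →+* LaurentSeries ℚ) (ℓ : ℚ) = 0 := by
    rw [map_natCast]; exact h
  have h2 : ((HahnSeries.C : ℚ →+* LaurentSeries ℚ) (ℓ : ℚ)).coeff 0 = 0 := by
    rw [h1]; rfl
  rw [HahnSeries.C_apply, HahnSeries.coeff_single_same] at h2
  exact (Nat.cast_ne_zero.mpr (Fact.out : ℓ.Prime).ne_zero) h2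

theorem Pkg.inE_normal (hP : Pkg N ℓ n u Ψ) {x : LaurentSeries ℚ} (hx : InE ℓ u x)
    (hx0 : x ≠ 0) :
    ∃ (m : ℤ) (c : Polynomial (Polynomial ↥(GaloisRep.ratLocalizedAt ℓ)))
      (b : Polynomial ↥(GaloisRep.ratLocalizedAt ℓ)),
      red ℓ (den ℓ b) ≠ 0 ∧ red ℓ (lam ℓ u c) ≠ 0 ∧
        x * emb ℓ (den ℓ b) = (ℓ : LaurentSeries ℚ) ^ m * emb ℓ (lam ℓ u c) := by
  obtain ⟨c₀, b₀, hb₀, hx⟩ := hx
  have hden : den ℓ b₀ ≠ 0 := den_ne_zero ℓ hb₀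
  have hemb : emb ℓ (den ℓ b₀) ≠ 0 := fun h =>
    hden (emb_injective ℓ (h.trans (map_zero (emb ℓ)).symm))
  have hlam0 : lam ℓ u c₀ ≠ 0 := by
    intro h
    rw [h, map_zero] at hx
    exact mul_ne_zero hx0 hemb hx
  obtain ⟨k₁, b, hb, hbres⟩ := poly_saturate ℓ hb₀
  obtain ⟨k₂, c, hc, hcres⟩ := hP.lam_saturate c₀ hlam0
  refine ⟨(k₂ : ℤ) - (k₁ : ℤ), c, b, (red_den_ne_zero_iff ℓ b).mpr hbres, hcres, ?_⟩
  have hden_eq : den ℓ b₀ =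
      (ℓ : LaurentSeries ↥(GaloisRep.ratLocalizedAt ℓ)) ^ k₁ * den ℓ b := by
    rw [hb, den_mul, den_C, map_pow, map_natCast]
  have hx' : x * ((ℓ : LaurentSeries ℚ) ^ k₁ * emb ℓ (den ℓ b)) =
      (ℓ : LaurentSeries ℚ) ^ k₂ * emb ℓ (lam ℓ u c) := by
    rw [hden_eq, hc, map_mul, map_mul, map_pow, map_pow, map_natCast] at hx
    exact hx
  have hℓ : (ℓ : LaurentSeries ℚ) ≠ 0 := cnormal_aux_natCast_ne_zero ℓ
  have hℓk : (ℓ : LaurentSeries ℚ) ^ k₁ ≠ 0 := pow_ne_zero _ hℓ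
  rw [zpow_sub₀ hℓ, zpow_natCast, zpow_natCast, div_mul_eq_mul_div, eq_div_iff hℓk]
  linear_combination hx'

end

end Fermat.Agent.S28
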